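import Fermat.Agent.S48.R48.Defs
import Fermat.Agent.S54.Frobenius

/-!
# S48 / R48 / Basic : elementary facts on `G_ℚ`-homomorphisms of finite level   (task S48/R48-Basic)

* `finite_range` : `r σ` depends only on `σ|_L` (if `σ|_L = τ|_L` then `σ⁻¹ τ` fixes `L`), and
  `L →ₐ[ℚ] Qb` is finite.
* `exists_frob` : `S54.exists_liesOverPrime`, `S54.exists_isFrobeniusAt`.
-/

set_option autoImplicit false

namespace Fermat.Agent.S48.R48

theorem finite_range {M : Type} [Group M] (r : GQ →* M) (h : GaloisFactorsThroughFiniteLevel r) :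
    Finite r.range := by
  obtain ⟨L, hL, h⟩ := h
  have key : ∀ σ τ : GQ, (∀ x ∈ L, σ x = τ x) → r σ = r τ := by
    intro σ τ hστ
    have : r (τ⁻¹ * σ) = 1 := h _ (fun x hx => by
      rw [AlgEquiv.mul_apply, hστ x hx]; exact τ.symm_apply_apply x)
    rw [map_mul, map_inv, inv_mul_eq_one] at this
    exact this.symm
  have : Finite (L →ₐ[ℚ] Qb) := inferInstance
  let f : r.range → (L →ₐ[ℚ] Qb) :=
    fun m => ((Classical.choose m.2 : GQ) : Qb →ₐ[ℚ] Qb).comp L.val
  apply Finite.of_injective f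
  intro m m' hmm
  apply Subtype.ext
  rw [← Classical.choose_spec m.2, ← Classical.choose_spec m'.2]
  apply key
  intro x hx
  exact DFunLike.congr_fun hmm ⟨x, hx⟩

theorem level_rangeRestrict {M : Type} [Group M] (r : GQ →* M)
    (h : GaloisFactorsThroughFiniteLevel r) : GaloisFactorsThroughFiniteLevel r.rangeRestrict := by
  obtain ⟨L, hL, h⟩ := h
  exact ⟨L, hL, fun σ hσ => Subtype.ext (h σ hσ)⟩

theorem level_comp {M M' : Type} [Monoid M] [Monoid M'] (r : GQ →* M) (f : M →* M')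
    (h : GaloisFactorsThroughFiniteLevel r) : GaloisFactorsThroughFiniteLevel (f.comp r) := by
  obtain ⟨L, hL, h⟩ := h
  exact ⟨L, hL, fun σ hσ => by rw [MonoidHom.comp_apply, h σ hσ, map_one]⟩

theorem level_prod {M M' : Type} [Monoid M] [Monoid M'] (r : GQ →* M) (r' : GQ →* M')
    (h : GaloisFactorsThroughFiniteLevel r) (h' : GaloisFactorsThroughFiniteLevel r') :
    GaloisFactorsThroughFiniteLevel (r.prod r') := by
  obtain ⟨L, hL, h⟩ := h
  obtain ⟨L', hL', h'⟩ := h'
  refine ⟨L ⊔ L', IntermediateField.finiteDimensional_sup L L', fun σ hσ => ?_⟩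
  rw [MonoidHom.prod_apply, h σ (fun x hx => hσ x ((le_sup_left : L ≤ L ⊔ L') hx)),
    h' σ (fun x hx => hσ x ((le_sup_right : L' ≤ L ⊔ L') hx))]
  rfl

theorem exists_frob (p : ℕ) (hp : p.Prime) :
    ∃ (A : ValuationSubring Qb) (σ : GQ), A.LiesOverPrime p ∧ A.IsFrobeniusAt σ p := by
  obtain ⟨A, hA⟩ := Fermat.Agent.S54.exists_liesOverPrime p hp
  obtain ⟨σ, hσ⟩ := Fermat.Agent.S54.exists_isFrobeniusAt p hp A hA
  exact ⟨A, σ, hA, hσ⟩

theorem UnramOutside.rangeRestrict {M : Type} [Group M] {r : GQ →* M} {S : Finset ℕ}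
    (h : UnramOutside r S) : UnramOutside r.rangeRestrict S := by
  intro p hp hpS A hA σ hσ
  exact Subtype.ext (h p hp hpS A hA σ hσ)

theorem UnramOutside.comp {M M' : Type} [Monoid M] [Monoid M'] {r : GQ →* M} {S : Finset ℕ}
    (h : UnramOutside r S) (f : M →* M') : UnramOutside (f.comp r) S := by
  intro p hp hpS A hA σ hσ
  rw [MonoidHom.comp_apply, h p hp hpS A hA σ hσ, map_one]

theorem UnramOutside.mono {M : Type} [Monoid M] {r : GQ →* M} {S S' : Finset ℕ}
    (h : UnramOutside r S) (hS : S ⊆ S') : UnramOutside r S' := by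
  intro p hp hpS A hA σ hσ
  exact h p hp (fun hmem => hpS (hS hmem)) A hA σ hσ

end Fermat.Agent.S48.R48
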