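import Fermat.Agent.S48.Defs

/-!
# S48 / R48 : vocabulary of the right-hand side (route '48', board #1262)

No modular forms here.  `a e : ℕ → ℂ` are the systems `a_p`, `ε(p)`; only the values at primes `p ∤ N`
matter.
-/

set_option autoImplicit false

namespace Fermat.Agent.S48.R48

/-- The characteristic polynomial of `M` is `(X - x)(X - y)` with `x / y` of exact order `d`. -/
def RatioOrd {k : Type} [Field k] (M : Matrix (Fin 2) (Fin 2) k) (d : ℕ) : Prop :=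
  ∃ x y : k, y ≠ 0 ∧ M.trace = x + y ∧ M.det = x * y ∧ orderOf (x / y) = d

/-- The characteristic polynomial of `M` is `(X - x)(X - y)` with `x ^ m = y ^ m`. -/
def RatioPow {k : Type} [Field k] (M : Matrix (Fin 2) (Fin 2) k) (m : ℕ) : Prop :=
  ∃ x y : k, M.trace = x + y ∧ M.det = x * y ∧ x ^ m = y ^ m

/-- The roots `x, y` of `X² - a X + e` satisfy `x ^ m = y ^ m`. -/
def RootsPow (a e : ℂ) (m : ℕ) : Prop :=
  ∃ x y : ℂ, x + y = a ∧ x * y = e ∧ x ^ m = y ^ m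

/-- `r` is unramified at all primes outside `S`. -/
def UnramOutside {M : Type} [Monoid M] (r : GQ →* M) (S : Finset ℕ) : Prop :=
  ∀ p : ℕ, p.Prime → p ∉ S → ∀ A : ValuationSubring Qb, A.LiesOverPrime p →
    ∀ σ ∈ A.inertiaSubgroupIn ℚ, r σ = 1

/-- **(I4*)**, the weak form of `HasModReps` which is all that FIN uses: for all large `ℓ`, every proper
ideal `I ∋ ℓ` of `ℤ̄` and every finite `X ⊆ I` there is SOME reduction map `φ` killing `X` along which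
`(a_p, e_p)` has a mod `ℓ` representation. -/
def HasModRepsW (N : ℕ) (a e : ℕ → ℂ) : Prop :=
  ∃ ℓ₀ : ℕ, ∀ ℓ : ℕ, ℓ.Prime → ℓ₀ < ℓ → ∀ I : Ideal Zbar, I ≠ ⊤ → (ℓ : Zbar) ∈ I →
    ∀ X : Finset Zbar, (∀ x ∈ X, x ∈ I) →
      ∃ (k : Type) (_ : Field k) (_ : CharP k ℓ) (_ : IsAlgClosed k) (φ : Zbar →+* k)
        (r : GQ →* GL (Fin 2) k), Function.Surjective φ ∧ (∀ x ∈ X, φ x = 0) ∧ IsModRep N a e ℓ φ r

/-- **The input of the right-hand side.** -/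
structure Data (N : ℕ) (a e : ℕ → ℂ) : Prop where
  N_ne : N ≠ 0
  /-- `e_p` is a root of unity of bounded order -/
  e_pow : ∃ n : ℕ, 0 < n ∧ ∀ p : ℕ, p.Prime → ¬ p ∣ N → e p ^ n = 1
  /-- (I1) -/
  int : ∀ p : ℕ, p.Prime → ¬ p ∣ N → IsIntegral ℤ (a p)
  /-- (I2*) Rankin for all conjugates -/
  rk : ∀ σ : ℂ →+* ℂ, UpperDens (fun p => ¬ p ∣ N) (fun p => ‖σ (a p)‖ ^ 2) 1
  /-- (I3) -/
  fin : ∀ η : ℝ, 0 < η →
    ∃ X : Finset ℂ, UpperDens (fun p => ¬ p ∣ N ∧ a p ∉ X) (fun _ => 1) η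
  /-- (I4*) -/
  gal : HasModRepsW N a e

/-- `ρ` is of finite level and has the properties required in S48 at all primes outside the finite
set `S`. -/
def IsAttached (a e : ℕ → ℂ) (S : Finset ℕ) (ρ : GQ →* GL (Fin 2) ℂ) : Prop :=
  GaloisFactorsThroughFiniteLevel ρ ∧
    ∀ p : ℕ, p.Prime → p ∉ S → ∀ A : ValuationSubring Qb, A.LiesOverPrime p →
      (∀ σ ∈ A.inertiaSubgroupIn ℚ, ρ σ = 1) ∧
      ∀ σ : GQ, A.IsFrobeniusAt σ p →
        ((ρ σ : GL (Fin 2) ℂ) : Matrix (Fin 2) (Fin 2) ℂ).trace = a p ∧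
        ((ρ σ : GL (Fin 2) ℂ) : Matrix (Fin 2) (Fin 2) ℂ).det = e p

end Fermat.Agent.S48.R48
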