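import Fermat.Agent.S48.R48.Defs

/-!
# S48 / R48 / Dens : calculus of `UpperDens`, `LowerDens`   (task S48/R48-Dens)

Pure real analysis (Mathlib only + `S48/Defs`).  All proofs are short: `pterm` is `≥ 0` for `w ≥ 0`,
`pterm P 1 s p ≤ p^(-s)` which is summable for `s > 1` (`Real.summable_nat_rpow`), `lg s ≥ 0` on `(1,2]`
and `lg s → ∞` as `s → 1+`.
-/

set_option autoImplicit false

namespace Fermat.Agent.S48.R48

theorem lg_nonneg {s : ℝ} (hs : 1 < s) (hs2 : s ≤ 2) : 0 ≤ lg s := by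
  unfold lg
  apply Real.log_nonneg
  rw [le_div_iff₀ (by linarith)]
  linarith

/-- `lg` is unbounded on `(1,2]`. -/
theorem exists_lg_gt (C : ℝ) : ∃ s : ℝ, 1 < s ∧ s ≤ 2 ∧ C < lg s := by
  refine ⟨1 + Real.exp (-(|C| + 1)), ?_, ?_, ?_⟩
  · have := Real.exp_pos (-(|C| + 1)); linarith
  · have : Real.exp (-(|C| + 1)) ≤ 1 := by
      rw [Real.exp_le_one_iff]
      have := abs_nonneg C
      linarith
    linarith
  · unfold lg
    rw [add_sub_cancel_left, one_div, ← Real.exp_neg, Real.log_exp, neg_neg]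
    have := le_abs_self C
    linarith

theorem Dens_pterm_abs_le (P : ℕ → Prop) (w : ℕ → ℝ) (B : ℝ) (hw : ∀ p, |w p| ≤ B) (s : ℝ) (p : ℕ) :
    ‖pterm P w s p‖ ≤ B * (p : ℝ) ^ (-s) := by
  have hB : 0 ≤ B := le_trans (abs_nonneg _) (hw 0)
  have hp : 0 ≤ (p : ℝ) ^ (-s) := Real.rpow_nonneg (Nat.cast_nonneg p) _
  unfold pterm
  split_ifs
  · rw [Real.norm_eq_abs, abs_mul, abs_of_nonneg hp]
    exact mul_le_mul_of_nonneg_right (hw p) hp
  · rw [norm_zero]; exact mul_nonneg hB hp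

theorem summable_pterm_one (P : ℕ → Prop) {s : ℝ} (hs : 1 < s) :
    Summable (pterm P (fun _ => 1) s) := by
  have h1 : Summable (fun p : ℕ => (1 : ℝ) * (p : ℝ) ^ (-s)) :=
    (Real.summable_nat_rpow.2 (by linarith)).mul_left 1
  exact Summable.of_norm_bounded h1 (Dens_pterm_abs_le P _ 1 (fun _ => by simp) s)

/-- bounded weights are summable. -/
theorem summable_pterm_of_bdd (P : ℕ → Prop) (w : ℕ → ℝ) (B : ℝ) (hw : ∀ p, |w p| ≤ B) {s : ℝ}
    (hs : 1 < s) : Summable (pterm P w s) := by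
  have h1 : Summable (fun p : ℕ => B * (p : ℝ) ^ (-s)) :=
    (Real.summable_nat_rpow.2 (by linarith)).mul_left B
  exact Summable.of_norm_bounded h1 (Dens_pterm_abs_le P w B hw s)

theorem UpperDens.mono_const {P : ℕ → Prop} {w : ℕ → ℝ} {c c' : ℝ} (h : UpperDens P w c)
    (hc : c ≤ c') : UpperDens P w c' := by
  obtain ⟨C, hC⟩ := h
  refine ⟨C, fun s hs hs2 => ⟨(hC s hs hs2).1, (hC s hs hs2).2.trans ?_⟩⟩
  have := mul_le_mul_of_nonneg_right hc (lg_nonneg hs hs2)
  linarith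

/-- smaller set, smaller non-negative weight. -/
theorem UpperDens.mono {P P' : ℕ → Prop} {w w' : ℕ → ℝ} {c : ℝ} (h : UpperDens P w c)
    (hP : ∀ p, p.Prime → P' p → P p) (hw' : ∀ p, p.Prime → P' p → 0 ≤ w' p)
    (hw0 : ∀ p, p.Prime → P p → 0 ≤ w p)
    (hw : ∀ p, p.Prime → P' p → w' p ≤ w p) : UpperDens P' w' c := by
  obtain ⟨C, hC⟩ := h
  have h0 : ∀ s p, 0 ≤ pterm P' w' s p := by
    intro s p
    unfold pterm
    split_ifs with h1
    · exact mul_nonneg (hw' p h1.1 h1.2) (Real.rpow_nonneg (Nat.cast_nonneg p) _)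
    · exact le_rfl
  have hle : ∀ s p, pterm P' w' s p ≤ pterm P w s p := by
    intro s p
    have hp : 0 ≤ (p : ℝ) ^ (-s) := Real.rpow_nonneg (Nat.cast_nonneg p) _
    unfold pterm
    split_ifs with h1 h2 h2
    · exact mul_le_mul_of_nonneg_right (hw p h1.1 h1.2) hp
    · exact absurd ⟨h1.1, hP p h1.1 h1.2⟩ h2
    · exact mul_nonneg (hw0 p h2.1 h2.2) hp
    · exact le_rfl
  refine ⟨C, fun s hs hs2 => ?_⟩
  obtain ⟨hS, hle'⟩ := hC s hs hs2
  have hS' : Summable (pterm P' w' s) := Summable.of_nonneg_of_le (h0 s) (hle s) hS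
  exact ⟨hS', (hS'.tsum_le_tsum (hle s) hS).trans hle'⟩

theorem Dens_pterm_congr {P P' : ℕ → Prop} {w w' : ℕ → ℝ}
    (hP : ∀ p, p.Prime → (P' p ↔ P p)) (hw : ∀ p, p.Prime → P p → w' p = w p) (s : ℝ) :
    pterm P' w' s = pterm P w s := by
  funext p
  unfold pterm
  split_ifs with h1 h2 h2
  · rw [hw p h2.1 h2.2]
  · exact absurd ⟨h1.1, (hP p h1.1).1 h1.2⟩ h2
  · exact absurd ⟨h2.1, (hP p h2.1).2 h2.2⟩ h1
  · rfl

theorem UpperDens.congr {P P' : ℕ → Prop} {w w' : ℕ → ℝ} {c : ℝ} (h : UpperDens P w c)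
    (hP : ∀ p, p.Prime → (P' p ↔ P p)) (hw : ∀ p, p.Prime → P p → w' p = w p) :
    UpperDens P' w' c := by
  obtain ⟨C, hC⟩ := h
  refine ⟨C, fun s hs hs2 => ?_⟩
  unfold psum
  rw [Dens_pterm_congr hP hw s]
  exact hC s hs hs2

theorem LowerDens.congr {P P' : ℕ → Prop} {w w' : ℕ → ℝ} {c : ℝ} (h : LowerDens P w c)
    (hP : ∀ p, p.Prime → (P' p ↔ P p)) (hw : ∀ p, p.Prime → P p → w' p = w p) :
    LowerDens P' w' c := by
  obtain ⟨C, hC⟩ := h
  refine ⟨C, fun s hs hs2 => ?_⟩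
  unfold psum
  rw [Dens_pterm_congr hP hw s]
  exact hC s hs hs2

/-- a finite set of primes has density `0`. -/
theorem upperDens_finset (S : Finset ℕ) : UpperDens (fun p => p ∈ S) (fun _ => 1) 0 := by
  refine ⟨S.card, fun s hs hs2 => ⟨summable_pterm_one _ hs, ?_⟩⟩
  unfold psum
  rw [tsum_eq_sum (s := S)]
  · rw [zero_mul, zero_add]
    calc ∑ p ∈ S, pterm (fun p => p ∈ S) (fun _ => 1) s p ≤ ∑ _p ∈ S, (1 : ℝ) := by
          refine Finset.sum_le_sum fun p _ => ?_
          unfold pterm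
          split_ifs with h1
          · rw [one_mul]
            have h1p : (1 : ℝ) ≤ p := by exact_mod_cast h1.1.one_lt.le
            exact Real.rpow_le_one_of_one_le_of_nonpos h1p (by linarith)
          · exact zero_le_one
      _ = S.card := by simp
  · intro p hp
    unfold pterm
    rw [if_neg]
    exact fun h => hp h.2

theorem UpperDens.or {P P' : ℕ → Prop} {c c' : ℝ} (h : UpperDens P (fun _ => 1) c)
    (h' : UpperDens P' (fun _ => 1) c') : UpperDens (fun p => P p ∨ P' p) (fun _ => 1) (c + c') := by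
  obtain ⟨C, hC⟩ := h
  obtain ⟨C', hC'⟩ := h'
  refine ⟨C + C', fun s hs hs2 => ⟨summable_pterm_one _ hs, ?_⟩⟩
  obtain ⟨hS, h1⟩ := hC s hs hs2
  obtain ⟨hS', h2⟩ := hC' s hs hs2
  have hle : ∀ p, pterm (fun p => P p ∨ P' p) (fun _ => 1) s p
      ≤ pterm P (fun _ => 1) s p + pterm P' (fun _ => 1) s p := by
    intro p
    have hp : 0 ≤ (p : ℝ) ^ (-s) := Real.rpow_nonneg (Nat.cast_nonneg p) _
    unfold pterm
    split_ifs with a b d d b d d <;> first | linarith | (exfalso; tauto)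
  have := (summable_pterm_one (fun p => P p ∨ P' p) hs).tsum_le_tsum hle (hS.add hS')
  rw [hS.tsum_add hS'] at this
  unfold psum at *
  linarith

namespace DensAux

theorem pterm_add (P : ℕ → Prop) (w w' : ℕ → ℝ) (s : ℝ) (p : ℕ) :
    pterm P (fun p => w p + w' p) s p = pterm P w s p + pterm P w' s p := by
  unfold pterm
  split_ifs
  · ring
  · simp

theorem pterm_zero (P : ℕ → Prop) (s : ℝ) (p : ℕ) : pterm P (fun _ => 0) s p = 0 := by
  unfold pterm
  split_ifs <;> simp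

theorem pterm_const_mul (P : ℕ → Prop) (w : ℕ → ℝ) (t s : ℝ) (p : ℕ) :
    pterm P (fun p => t * w p) s p = t * pterm P w s p := by
  unfold pterm
  split_ifs
  · ring
  · simp

theorem upperDens_zero (P : ℕ → Prop) : UpperDens P (fun _ => 0) 0 := by
  refine ⟨0, fun s _ _ => ?_⟩
  have h : pterm P (fun _ => 0) s = fun _ => 0 := funext (pterm_zero P s)
  refine ⟨by rw [h]; exact summable_zero, ?_⟩
  rw [psum, h, tsum_zero]; simp

theorem lowerDens_zero (P : ℕ → Prop) : LowerDens P (fun _ => 0) 0 := by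
  refine ⟨0, fun s _ _ => ?_⟩
  have h : pterm P (fun _ => 0) s = fun _ => 0 := funext (pterm_zero P s)
  refine ⟨by rw [h]; exact summable_zero, ?_⟩
  rw [psum, h, tsum_zero]; simp

theorem upperDens_add {P : ℕ → Prop} {w w' : ℕ → ℝ} {c c' : ℝ} (h : UpperDens P w c)
    (h' : UpperDens P w' c') : UpperDens P (fun p => w p + w' p) (c + c') := by
  obtain ⟨C, hC⟩ := h
  obtain ⟨C', hC'⟩ := h'
  refine ⟨C + C', fun s hs hs2 => ?_⟩
  obtain ⟨h1, h2⟩ := hC s hs hs2
  obtain ⟨h1', h2'⟩ := hC' s hs hs2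
  have e : pterm P (fun p => w p + w' p) s = fun p => pterm P w s p + pterm P w' s p :=
    funext (pterm_add P w w' s)
  refine ⟨by rw [e]; exact h1.add h1', ?_⟩
  rw [psum, e, h1.tsum_add h1']
  unfold psum at h2 h2'
  linarith

theorem lowerDens_add {P : ℕ → Prop} {w w' : ℕ → ℝ} {c c' : ℝ} (h : LowerDens P w c)
    (h' : LowerDens P w' c') : LowerDens P (fun p => w p + w' p) (c + c') := by
  obtain ⟨C, hC⟩ := h
  obtain ⟨C', hC'⟩ := h'
  refine ⟨C + C', fun s hs hs2 => ?_⟩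
  obtain ⟨h1, h2⟩ := hC s hs hs2
  obtain ⟨h1', h2'⟩ := hC' s hs hs2
  have e : pterm P (fun p => w p + w' p) s = fun p => pterm P w s p + pterm P w' s p :=
    funext (pterm_add P w w' s)
  refine ⟨by rw [e]; exact h1.add h1', ?_⟩
  rw [psum, e, h1.tsum_add h1']
  unfold psum at h2 h2'
  linarith

end DensAux

/-- finite unions. -/
theorem upperDens_exists {ι : Type} (T : Finset ι) (P : ι → ℕ → Prop) (c : ι → ℝ)
    (h : ∀ i ∈ T, UpperDens (P i) (fun _ => 1) (c i)) :
    UpperDens (fun p => ∃ i ∈ T, P i p) (fun _ => 1) (∑ i ∈ T, c i) := by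
  classical
  induction T using Finset.induction_on with
  | empty =>
    rw [Finset.sum_empty]
    exact UpperDens.congr (upperDens_finset ∅) (fun p _ => by simp) (fun _ _ _ => rfl)
  | insert a T ha ih =>
    rw [Finset.sum_insert ha]
    refine UpperDens.congr (UpperDens.or (h a (Finset.mem_insert_self a T))
      (ih fun i hi => h i (Finset.mem_insert_of_mem hi))) (fun p _ => ?_) (fun _ _ _ => rfl)
    simp only [Finset.mem_insert, or_and_right, exists_or, exists_eq_left]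

/-- finite sums of weights. -/
theorem upperDens_sum {ι : Type} (T : Finset ι) (P : ℕ → Prop) (w : ι → ℕ → ℝ) (c : ι → ℝ)
    (h : ∀ i ∈ T, UpperDens P (w i) (c i)) :
    UpperDens P (fun p => ∑ i ∈ T, w i p) (∑ i ∈ T, c i) := by
  classical
  induction T using Finset.induction_on with
  | empty =>
    simp only [Finset.sum_empty]
    exact DensAux.upperDens_zero P
  | insert a T ha ih =>
    simp only [Finset.sum_insert ha]
    exact DensAux.upperDens_add (h a (Finset.mem_insert_self a T))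
      (ih fun i hi => h i (Finset.mem_insert_of_mem hi))

theorem lowerDens_sum {ι : Type} (T : Finset ι) (P : ℕ → Prop) (w : ι → ℕ → ℝ) (c : ι → ℝ)
    (h : ∀ i ∈ T, LowerDens P (w i) (c i)) :
    LowerDens P (fun p => ∑ i ∈ T, w i p) (∑ i ∈ T, c i) := by
  classical
  induction T using Finset.induction_on with
  | empty =>
    simp only [Finset.sum_empty]
    exact DensAux.lowerDens_zero P
  | insert a T ha ih =>
    simp only [Finset.sum_insert ha]
    exact DensAux.lowerDens_add (h a (Finset.mem_insert_self a T))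
      (ih fun i hi => h i (Finset.mem_insert_of_mem hi))

theorem UpperDens.const_mul {P : ℕ → Prop} {w : ℕ → ℝ} {c : ℝ} (h : UpperDens P w c) {t : ℝ}
    (ht : 0 ≤ t) : UpperDens P (fun p => t * w p) (t * c) := by
  obtain ⟨C, hC⟩ := h
  refine ⟨t * C, fun s hs hs2 => ?_⟩
  obtain ⟨h1, h2⟩ := hC s hs hs2
  have e : pterm P (fun p => t * w p) s = fun p => t * pterm P w s p :=
    funext (DensAux.pterm_const_mul P w t s)
  refine ⟨by rw [e]; exact h1.mul_left t, ?_⟩
  rw [psum, e, tsum_mul_left]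
  have := mul_le_mul_of_nonneg_left h2 ht
  unfold psum at this
  linarith

theorem LowerDens.const_mul {P : ℕ → Prop} {w : ℕ → ℝ} {c : ℝ} (h : LowerDens P w c) {t : ℝ}
    (ht : 0 ≤ t) : LowerDens P (fun p => t * w p) (t * c) := by
  obtain ⟨C, hC⟩ := h
  refine ⟨t * C, fun s hs hs2 => ?_⟩
  obtain ⟨h1, h2⟩ := hC s hs hs2
  have e : pterm P (fun p => t * w p) s = fun p => t * pterm P w s p :=
    funext (DensAux.pterm_const_mul P w t s)
  refine ⟨by rw [e]; exact h1.mul_left t, ?_⟩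
  rw [psum, e, tsum_mul_left]
  have := mul_le_mul_of_nonneg_left h2 ht
  unfold psum at this
  linarith

/-- multiplication by a negative constant exchanges upper and lower. -/
theorem UpperDens.neg_mul {P : ℕ → Prop} {w : ℕ → ℝ} {c : ℝ} (h : UpperDens P w c) {t : ℝ}
    (ht : t ≤ 0) : LowerDens P (fun p => t * w p) (t * c) := by
  obtain ⟨C, hC⟩ := h
  refine ⟨-(t * C), fun s hs hs2 => ?_⟩
  obtain ⟨h1, h2⟩ := hC s hs hs2
  have e : pterm P (fun p => t * w p) s = fun p => t * pterm P w s p :=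
    funext (DensAux.pterm_const_mul P w t s)
  refine ⟨by rw [e]; exact h1.mul_left t, ?_⟩
  rw [psum, e, tsum_mul_left]
  have := mul_le_mul_of_nonpos_left h2 ht
  unfold psum at this
  linarith

/-- **comparison**: a lower density cannot exceed an upper density. -/
theorem le_of_lowerDens_of_upperDens {P : ℕ → Prop} {w : ℕ → ℝ} {c c' : ℝ} (h : LowerDens P w c)
    (h' : UpperDens P w c') : c ≤ c' := by
  obtain ⟨C, hC⟩ := h
  obtain ⟨C', hC'⟩ := h'
  by_contra hlt
  rw [not_le] at hlt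
  obtain ⟨s, hs, hs2, hlg⟩ := exists_lg_gt ((C + C') / (c - c'))
  have h1 := (hC s hs hs2).2
  have h2 := (hC' s hs hs2).2
  have hpos : 0 < c - c' := sub_pos.mpr hlt
  rw [div_lt_iff₀ hpos] at hlg
  nlinarith

/-- comparison for sets: `P ⊆ P'`. -/
theorem le_of_lowerDens_of_upperDens_of_imp {P P' : ℕ → Prop} {c c' : ℝ}
    (h : LowerDens P (fun _ => 1) c) (h' : UpperDens P' (fun _ => 1) c')
    (hP : ∀ p, p.Prime → P p → P' p) : c ≤ c' :=
  le_of_lowerDens_of_upperDens h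
    (UpperDens.mono h' hP (fun _ _ _ => zero_le_one) (fun _ _ _ => zero_le_one)
      (fun _ _ _ => le_rfl))

/-- from the two-sided form of `CH.frobeniusDensity`. -/
theorem dens_of_abs_le {P : ℕ → Prop} {c : ℝ}
    (h : ∃ C : ℝ, ∀ s : ℝ, 1 < s → s ≤ 2 → |psum P (fun _ => 1) s - c * lg s| ≤ C) :
    UpperDens P (fun _ => 1) c ∧ LowerDens P (fun _ => 1) c := by
  obtain ⟨C, hC⟩ := h
  refine ⟨⟨C, fun s hs hs2 => ⟨summable_pterm_one P hs, ?_⟩⟩,
    ⟨C, fun s hs hs2 => ⟨summable_pterm_one P hs, ?_⟩⟩⟩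
  · have := (abs_le.mp (hC s hs hs2)).2
    linarith
  · have := (abs_le.mp (hC s hs hs2)).1
    linarith

end Fermat.Agent.S48.R48
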