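import Fermat.Agent.S48.CH.Main
import Fermat.Agent.S48.R48.Dens
import Fermat.Agent.S48.R48.Basic

/-!
# S48 / R48 / FDfun : the Frobenius density theorem for class functions constant on divisions
(task S48/R48-FDfun)

`frobDens_set` : `CH.frobeniusDensity` + `dens_of_abs_le`.

`frobDens_fun` : `F = ∑_{c ∈ F(G)} c • 1_{F⁻¹ c}`, each `D_c = F⁻¹ {c}` is `IsDivStable` (for the power condition:
`zpowers (h ^ j) = zpowers h` for `j` prime to `orderOf h`).  For a prime `p ∉ S`: `FrobIn r D_c p ↔ w p = c`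
(`⟸` : `exists_frob`; `⟹` : `hw`).  So on `p ∉ S`: `w p = ∑_c c * 1[FrobIn r D_c p]`, i.e.
`pterm (· ∉ S) w s p = ∑_c c * pterm (fun p => p ∉ S ∧ FrobIn r D_c p) 1 s p`; use `frobDens_set` and, according to
the sign of `c`, `const_mul` / `neg_mul`, then `lowerDens_sum` (resp. `upperDens_sum`), after rewriting
`pterm (P ∧ Q) 1 = pterm P 1[Q]`.  `∑_c c |D_c| = ∑_g F g`.
-/

set_option autoImplicit false

namespace Fermat.Agent.S48.R48

theorem frobDens_set {G : Type} [Group G] [Finite G] (r : GQ →* G)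
    (hr : Function.Surjective r) (hlev : GaloisFactorsThroughFiniteLevel r) (S : Finset ℕ)
    (hunr : UnramOutside r S) (D : Set G) (hD : IsDivStable D) :
    UpperDens (fun p => p ∉ S ∧ FrobIn r D p) (fun _ => 1) ((Nat.card D : ℝ) / Nat.card G) ∧
    LowerDens (fun p => p ∉ S ∧ FrobIn r D p) (fun _ => 1) ((Nat.card D : ℝ) / Nat.card G) :=
  dens_of_abs_le (CH.frobeniusDensity r hr hlev S hunr D hD)

namespace FDfun

open Classical in
/-- `pterm (P ∧ Q) 1 = pterm P 1[Q]`. -/
theorem pterm_and (P Q : ℕ → Prop) (s : ℝ) :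
    pterm (fun p => P p ∧ Q p) (fun _ => 1) s = pterm P (fun p => if Q p then 1 else 0) s := by
  funext p
  unfold pterm
  by_cases hp : p.Prime <;> by_cases hP : P p <;> by_cases hQ : Q p <;> simp [hp, hP, hQ]

open Classical in
theorem upper_and {P Q : ℕ → Prop} {c : ℝ}
    (h : UpperDens (fun p => P p ∧ Q p) (fun _ => 1) c) :
    UpperDens P (fun p => if Q p then 1 else 0) c := by
  obtain ⟨C, hC⟩ := h
  refine ⟨C, fun s hs hs2 => ?_⟩
  have := hC s hs hs2
  unfold psum at this ⊢
  rw [pterm_and] at this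
  exact this

open Classical in
theorem lower_and {P Q : ℕ → Prop} {c : ℝ}
    (h : LowerDens (fun p => P p ∧ Q p) (fun _ => 1) c) :
    LowerDens P (fun p => if Q p then 1 else 0) c := by
  obtain ⟨C, hC⟩ := h
  refine ⟨C, fun s hs hs2 => ?_⟩
  have := hC s hs hs2
  unfold psum at this ⊢
  rw [pterm_and] at this
  exact this

theorem pterm_const_mul (P : ℕ → Prop) (w : ℕ → ℝ) (t s : ℝ) :
    pterm P (fun p => t * w p) s = fun p => t * pterm P w s p := by
  funext p
  unfold pterm
  split_ifs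
  · ring
  · simp

/-- multiplication by a negative constant exchanges lower and upper. -/
theorem lower_neg_mul {P : ℕ → Prop} {w : ℕ → ℝ} {c : ℝ} (h : LowerDens P w c) {t : ℝ}
    (ht : t ≤ 0) : UpperDens P (fun p => t * w p) (t * c) := by
  obtain ⟨C, hC⟩ := h
  refine ⟨-t * C, fun s hs hs2 => ?_⟩
  obtain ⟨h1, h2⟩ := hC s hs hs2
  unfold psum at h2 ⊢
  rw [pterm_const_mul]
  refine ⟨h1.mul_left t, ?_⟩
  rw [tsum_mul_left]
  nlinarith [mul_le_mul_of_nonpos_left h2 ht]

theorem isDivStable_fiber {G : Type} [Group G] (F : G → ℝ)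
    (hconj : ∀ g h : G, F (g * h * g⁻¹) = F h)
    (hdiv : ∀ (h : G) (j : ℕ), j.Coprime (orderOf h) → F (h ^ j) = F h) (c : ℝ) :
    IsDivStable (F ⁻¹' {c}) := by
  refine ⟨fun g h hh => ?_, fun h j hh hj => ?_⟩
  · simp only [Set.mem_preimage, Set.mem_singleton_iff] at hh ⊢
    rw [hconj, hh]
  · simp only [Set.mem_preimage, Set.mem_singleton_iff] at hh ⊢
    rw [hdiv h j hj, hh]

theorem sum_fiber {G : Type} [Fintype G] (F : G → ℝ) :
    ∑ c ∈ Finset.univ.image F, c * ((Nat.card (F ⁻¹' {c}) : ℝ) / Fintype.card G) =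
      (∑ g, F g) / Fintype.card G := by
  classical
  have h := Finset.sum_comp (s := (Finset.univ : Finset G)) (fun x : ℝ => x) F
  rw [h, Finset.sum_div]
  refine Finset.sum_congr rfl fun c _ => ?_
  have hc : Nat.card (F ⁻¹' {c}) = (Finset.univ.filter fun a => F a = c).card :=
    Nat.subtype_card _ (by intro x; simp)
  rw [hc, nsmul_eq_mul]
  ring

end FDfun

open Classical in
theorem frobDens_fun {G : Type} [Group G] [Fintype G] (r : GQ →* G)
    (hr : Function.Surjective r) (hlev : GaloisFactorsThroughFiniteLevel r) (S : Finset ℕ)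
    (hunr : UnramOutside r S) (F : G → ℝ) (hconj : ∀ g h : G, F (g * h * g⁻¹) = F h)
    (hdiv : ∀ (h : G) (j : ℕ), j.Coprime (orderOf h) → F (h ^ j) = F h)
    (w : ℕ → ℝ)
    (hw : ∀ p : ℕ, p.Prime → p ∉ S → ∀ (A : ValuationSubring Qb) (σ : GQ), A.LiesOverPrime p →
      A.IsFrobeniusAt σ p → w p = F (r σ)) :
    UpperDens (fun p => p ∉ S) w ((∑ g, F g) / Fintype.card G) ∧
    LowerDens (fun p => p ∉ S) w ((∑ g, F g) / Fintype.card G) := by
  set T : Finset ℝ := Finset.univ.image F with hT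
  have hset : ∀ c : ℝ,
      UpperDens (fun p => p ∉ S) (fun p => if FrobIn r (F ⁻¹' {c}) p then 1 else 0)
        ((Nat.card (F ⁻¹' {c}) : ℝ) / Fintype.card G) ∧
      LowerDens (fun p => p ∉ S) (fun p => if FrobIn r (F ⁻¹' {c}) p then 1 else 0)
        ((Nat.card (F ⁻¹' {c}) : ℝ) / Fintype.card G) := by
    intro c
    have h := frobDens_set r hr hlev S hunr (F ⁻¹' {c}) (FDfun.isDivStable_fiber F hconj hdiv c)
    rw [Nat.card_eq_fintype_card (α := G)] at h
    exact ⟨FDfun.upper_and h.1, FDfun.lower_and h.2⟩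
  -- the pointwise identity
  have hpt : ∀ p : ℕ, p.Prime → p ∉ S →
      w p = ∑ c ∈ T, c * (if FrobIn r (F ⁻¹' {c}) p then (1 : ℝ) else 0) := by
    intro p hp hpS
    obtain ⟨A, σ, hA, hσ⟩ := exists_frob p hp
    have hwp := hw p hp hpS A σ hA hσ
    have hiff : ∀ c : ℝ, FrobIn r (F ⁻¹' {c}) p ↔ w p = c := by
      intro c
      constructor
      · rintro ⟨A', σ', hA', hσ', hmem⟩
        rw [hw p hp hpS A' σ' hA' hσ']
        exact hmem
      · intro hc
        exact ⟨A, σ, hA, hσ, by rw [Set.mem_preimage, Set.mem_singleton_iff, ← hwp, hc]⟩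
    have hmem : w p ∈ T := by
      rw [hT, hwp]
      exact Finset.mem_image_of_mem F (Finset.mem_univ _)
    simp only [hiff, mul_ite, mul_one, mul_zero]
    rw [Finset.sum_ite_eq, if_pos hmem]
  rw [← FDfun.sum_fiber F]
  constructor
  · have h := upperDens_sum T (fun p => p ∉ S)
      (fun c p => c * (if FrobIn r (F ⁻¹' {c}) p then (1 : ℝ) else 0))
      (fun c => c * ((Nat.card (F ⁻¹' {c}) : ℝ) / Fintype.card G)) (by
        intro c _
        rcases le_total 0 c with hc | hc
        · exact UpperDens.const_mul (hset c).1 hc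
        · exact FDfun.lower_neg_mul (hset c).2 hc)
    exact UpperDens.congr h (fun _ _ => Iff.rfl) hpt
  · have h := lowerDens_sum T (fun p => p ∉ S)
      (fun c p => c * (if FrobIn r (F ⁻¹' {c}) p then (1 : ℝ) else 0))
      (fun c => c * ((Nat.card (F ⁻¹' {c}) : ℝ) / Fintype.card G)) (by
        intro c _
        rcases le_total 0 c with hc | hc
        · exact LowerDens.const_mul (hset c).2 hc
        · exact UpperDens.neg_mul (hset c).1 hc)
    exact LowerDens.congr h (fun _ _ => Iff.rfl) hpt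

end Fermat.Agent.S48.R48
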