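import Fermat.Agent.S48.R48.Defs
import Fermat.Agent.S48.GT.Export

/-!
# S48 / R48 / GT : the two group-theoretic lemmas (A), (F) of route '48'   (owner: helper76)

Pure finite group theory in `GL₂(k)`.  Board #1262 (A), (F).  The owner may move the proofs to
`S48/GT/…` and keep here one-line proofs; the STATEMENTS below are what FIN uses.

## (A) `card_ratioOrd_le`
`Z` = scalars of `G`.  Double counting of pairs `(g, h)`, `g ∈ S_d`, `h ∈ C_G(g) \ Z`:
* a `g` with `RatioOrd g d`, `d ≥ 2`, has two distinct eigenvalues in `k`, so it is diagonalisable over `k`;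
  its centraliser in `GL₂(k)` is the torus of its eigenbasis; for non-scalar `h` in that torus
  `C_G(h) = C_G(g)`.
* `|C_G(g) \ Z| ≥ (d-1) |Z|` : `(i, z) ↦ g^i z`, `0 < i < d`, is injective into it (ratio of `g^i z` is
  `ratio(g)^i ≠ 1`).
* for each non-scalar `h`: `|S_d ∩ C_G(h)| ≤ φ(d) |Z|` : ratio `: C_G(h) → kˣ` is a homomorphism with kernel
  `Z`, and `kˣ` has at most `φ(d)` elements of order `d`.
Hence `(d-1) |Z| |S_d| ≤ φ(d) |Z| |G|`.

## (F) `ratioPow_of_large`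
`W = {g ∈ G : RatioPow g m₀}`, `8 |W| ≥ 7 |G|`, `ℓ > 6 m₀`.
* Case R: `G` fixes a line.  Upper triangular in a suitable basis, `χ = a/d : G → kˣ`, `W = ker χ^m₀` is a
  subgroup of index `< 2`: `W = G`.
* Case I(i): `G` fixes no line and contains `u ≠ 1` with `(u-1)² = 0`; `L₀ = ker (u-1)`, `B = Stab_G L₀ ≠ G`,
  `|B| ≤ |G|/2`.  For `h ∉ B`: `tr (h u^t) = tr h + t c`, `c = tr (h (u-1)) ≠ 0`, `det` constant, so the `ℓ`
  elements of `h⟨u⟩` have distinct traces; `RatioPow` forces `tr² = (1+ζ)² det / ζ`, `ζ^m₀ = 1`: at most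
  `2 m₀` traces.  `|W| ≤ |B| + (2 m₀/ℓ) |G \ B| ≤ (2/3) |G|`: contradiction.
* Case I(ii): no such `u`; then every element of `G` is diagonalisable (`g = λ u'`, `g^(ord λ)` unipotent).
  Let `x ∈ G \ W`, diagonal in a suitable basis with distinct eigenvalues, `Zt = G ∩ diagonal`,
  `Nt = G ∩ (diagonal ∪ antidiagonal)`, `[Nt : Zt] ≤ 2`, `Zt ∩ W` is a proper subgroup of `Zt`.  The map
  `G × (Zt \ W) → G \ W`, `(h, z) ↦ h z h⁻¹` has fibres of size `≤ |Nt|`.  So `|G \ W| ≥ |G|/4`: contradiction.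
* `ℓ ∤ |G|` if `IsSS`: an element of order `ℓ` (Cauchy) satisfies `(g-1)^ℓ = 0`, so `(g-1)² = 0`, `g ≠ 1`;
  impossible for diagonal matrices, and excluded by Case I(i) if `G` is irreducible.
-/

set_option autoImplicit false

namespace Fermat.Agent.S48.R48

theorem ratioOrd_iff_SD {k : Type} [Field k] (g : GL (Fin 2) k) (d : ℕ) :
    RatioOrd (g : Matrix (Fin 2) (Fin 2) k) d ↔ GT.SD d g := by
  constructor
  · rintro ⟨x, y, -, h1, h2, h3⟩
    exact ⟨x, y, ⟨h1, h2⟩, h3⟩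
  · rintro ⟨x, y, h, h3⟩
    exact ⟨x, y, h.ne_zero.2, h.1, h.2, h3⟩

theorem ratioPow_iff_PW {k : Type} [Field k] (g : GL (Fin 2) k) (m : ℕ) :
    RatioPow (g : Matrix (Fin 2) (Fin 2) k) m ↔ GT.PW m g := by
  constructor
  · rintro ⟨x, y, h1, h2, h3⟩
    exact ⟨x, y, ⟨h1, h2⟩, h3⟩
  · rintro ⟨x, y, h, h3⟩
    exact ⟨x, y, h.1, h.2, h3⟩

/-- the complement of a union of divisions in a finite group is a union of divisions. -/
theorem isDivStable_compl {G : Type} [Group G] [Finite G] {D : Set G} (hD : IsDivStable D) :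
    IsDivStable Dᶜ := by
  refine ⟨fun g h hh hc => hh ?_, fun h j hh hj hc => hh ?_⟩
  · have := hD.1 g⁻¹ _ hc
    have h2 : g⁻¹ * (g * h * g⁻¹) * g⁻¹⁻¹ = h := by group
    rwa [h2] at this
  · obtain ⟨m, hm⟩ := exists_pow_eq_self_of_coprime hj
    have hN : 0 < orderOf h := orderOf_pos h
    have h1 : orderOf (h ^ j) = orderOf h := (Nat.Coprime.symm hj).orderOf_pow
    have h2 : orderOf ((h ^ j) ^ m) = orderOf (h ^ j) / Nat.gcd (orderOf (h ^ j)) m :=
      orderOf_pow _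
    rw [hm, h1] at h2
    have h3 : Nat.gcd (orderOf h) m = 1 := by
      rcases Nat.div_eq_self.1 h2.symm with h | h
      · omega
      · exact h
    have h4 : m.Coprime (orderOf (h ^ j)) := by
      rw [h1]
      exact Nat.Coprime.symm h3
    have := hD.2 _ m hc h4
    rwa [hm] at this

/-- an element of finite order with `RatioOrd g d` has `d > 0`. -/
theorem RatioOrd.pos {k : Type} [Field k] {g : GL (Fin 2) k} {d n : ℕ} (hn : 0 < n)
    (hg : g ^ n = 1) (h : RatioOrd (g : Matrix (Fin 2) (Fin 2) k) d) : 0 < d := by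
  obtain ⟨a, b, hab, hd⟩ := (ratioOrd_iff_SD g d).1 h
  have h1 : GT.Eig (1 : GL (Fin 2) k) (a ^ n) (b ^ n) := by
    have := hab.pow n
    rwa [hg] at this
  have h2 : GT.Eig (1 : GL (Fin 2) k) 1 1 := by
    have := hab.pow 0
    simpa using this
  have h3 : a ^ n = 1 ∧ b ^ n = 1 := by
    rcases h2.unique h1 with h | h
    · exact h
    · exact h
  rw [← hd]
  apply orderOf_pos_iff.2
  rw [isOfFinOrder_iff_pow_eq_one]
  exact ⟨n, hn, by rw [div_pow, h3.1, h3.2, div_one]⟩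

/-- **(A)** -/
theorem card_ratioOrd_le {k : Type} [Field k] (G : Subgroup (GL (Fin 2) k)) [Finite G] (d : ℕ)
    (hd : 2 ≤ d) :
    (d - 1) * Nat.card {g : G // RatioOrd ((g : GL (Fin 2) k) : Matrix (Fin 2) (Fin 2) k) d} ≤
      Nat.totient d * Nat.card G := by
  have h := GT.A_bound G d hd
  have h1 : Nat.card {g : G // RatioOrd ((g : GL (Fin 2) k) : Matrix (Fin 2) (Fin 2) k) d} =
      {g : G | GT.SD d (g : GL (Fin 2) k)}.ncard := by
    rw [← Nat.card_coe_set_eq]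
    exact Nat.card_congr (Equiv.subtypeEquivRight fun g => ratioOrd_iff_SD _ d)
  rw [h1, mul_comm]
  exact h

/-- `{g : RatioOrd g d}` is a union of divisions. -/
theorem isDivStable_ratioOrd {k : Type} [Field k] (G : Subgroup (GL (Fin 2) k)) [Finite G] (d : ℕ) :
    IsDivStable {g : G | RatioOrd ((g : GL (Fin 2) k) : Matrix (Fin 2) (Fin 2) k) d} := by
  have h : {g : G | RatioOrd ((g : GL (Fin 2) k) : Matrix (Fin 2) (Fin 2) k) d} =
      {g : G | GT.SD d (g : GL (Fin 2) k)} := by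
    ext g
    exact ratioOrd_iff_SD _ d
  rw [h]
  exact GT.isDivStable_SD G d

/-- the complement of `{g : RatioPow g m}` is a union of divisions. -/
theorem isDivStable_not_ratioPow {k : Type} [Field k] [IsAlgClosed k] (G : Subgroup (GL (Fin 2) k))
    [Finite G] (m : ℕ) :
    IsDivStable {g : G | ¬ RatioPow ((g : GL (Fin 2) k) : Matrix (Fin 2) (Fin 2) k) m} := by
  have h : {g : G | ¬ RatioPow ((g : GL (Fin 2) k) : Matrix (Fin 2) (Fin 2) k) m} =
      {g : G | GT.PW m (g : GL (Fin 2) k)}ᶜ := by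
    ext g
    exact not_congr (ratioPow_iff_PW _ m)
  rw [h]
  exact isDivStable_compl (GT.isDivStable_PW G m)

/-- **(F)** -/
theorem ratioPow_of_large {k : Type} [Field k] [IsAlgClosed k] (ℓ : ℕ) [CharP k ℓ] (hℓ : ℓ.Prime)
    (G : Subgroup (GL (Fin 2) k)) [Finite G] (m₀ : ℕ) (hm : 0 < m₀) (hbig : 6 * m₀ < ℓ)
    (hW : 7 * Nat.card G ≤
      8 * Nat.card {g : G // RatioPow ((g : GL (Fin 2) k) : Matrix (Fin 2) (Fin 2) k) m₀}) :
    (∀ g ∈ G, RatioPow ((g : GL (Fin 2) k) : Matrix (Fin 2) (Fin 2) k) m₀) ∧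
      (IsSS G.subtype → ¬ ℓ ∣ Nat.card G) := by
  have h1 : Nat.card {g : G // RatioPow ((g : GL (Fin 2) k) : Matrix (Fin 2) (Fin 2) k) m₀} =
      {g : G | GT.PW m₀ (g : GL (Fin 2) k)}.ncard := by
    rw [← Nat.card_coe_set_eq]
    exact Nat.card_congr (Equiv.subtypeEquivRight fun g => ratioPow_iff_PW _ m₀)
  rw [h1] at hW
  have hpos : 0 < Nat.card G := Nat.card_pos
  have hall : ∀ g : G, GT.PW m₀ (g : GL (Fin 2) k) := GT.F1 G m₀ (by omega)
  refine ⟨fun g hg => (ratioPow_iff_PW g m₀).2 (hall ⟨g, hg⟩), fun hss => ?_⟩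
  have : Fact ℓ.Prime := ⟨hℓ⟩
  have hSS : GT.SS G := by
    have := GT.SS_range G.subtype hss
    rwa [Subgroup.range_subtype] at this
  exact GT.F2 ℓ G hSS m₀ hm (by omega) hall

end Fermat.Agent.S48.R48
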