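import Fermat.Agent.S48.R48.StepH

/-!
# S48 / R48 / Irred : irreducibility of the complex representation   (task S48/R48-Irred)

Suppose `matrixRepresentation ρ` is not irreducible.  `Fin 2 → ℂ` is nontrivial, so there is an invariant subspace `W ≠ ⊥, ⊤`, of
dimension `1`, `W = ℂ v`.  `ρ σ v = χ₁ σ • v` defines `χ₁ : GQ →* ℂˣ`; `χ₂ = det ρ / χ₁`.  Then `tr ρ σ = χ₁ σ + χ₂ σ` (complete `v` to a
basis; or: `χ₁ σ` is a root of the characteristic polynomial `X² - tr X + det`, so `χ₁² - tr χ₁ + χ₁ χ₂ = 0`, divide by `χ₁`).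
`χ₁ σ = 1`, `χ₂ σ = 1` whenever `ρ σ = 1`: finite level and `UnramOutside … S`.  `no_characters` with `T = S ∪ N.primeFactors`.
-/

set_option autoImplicit false

namespace Fermat.Agent.S48.R48

/-- a reducible `ρ` has a common eigenvector. -/
theorem Irred.exists_eigenvector {Γ : Type} [Group Γ] (ρ : Γ →* GL (Fin 2) ℂ)
    (h : ¬ (Deformation.matrixRepresentation ρ).IsIrreducible) :
    ∃ v : Fin 2 → ℂ, v ≠ 0 ∧ ∀ σ : Γ, ∃ c : ℂ,
      ((ρ σ : GL (Fin 2) ℂ) : Matrix (Fin 2) (Fin 2) ℂ).mulVec v = c • v := by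
  by_contra hcon
  apply h
  have hnt : Nontrivial (Subrepresentation (Deformation.matrixRepresentation ρ)) := by
    refine ⟨⊥, ⊤, fun hbt => ?_⟩
    have h1 : (⊥ : Submodule ℂ (Fin 2 → ℂ)) = ⊤ :=
      congrArg Subrepresentation.toSubmodule hbt
    exact bot_ne_top h1
  refine { toNontrivial := hnt, eq_bot_or_eq_top := fun W => ?_ }
  by_contra hW
  push Not at hW
  obtain ⟨hb, ht⟩ := hW
  have hb' : W.toSubmodule ≠ ⊥ := fun e => hb (Subrepresentation.toSubmodule_injective e)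
  have ht' : W.toSubmodule ≠ ⊤ := fun e => ht (Subrepresentation.toSubmodule_injective e)
  have h1 : Module.finrank ℂ W.toSubmodule < 2 := by
    have := Submodule.finrank_lt ht'
    simpa using this
  have h0 : 0 < Module.finrank ℂ W.toSubmodule := by
    rw [Module.finrank_pos_iff]
    exact (Submodule.nontrivial_iff_ne_bot).2 hb'
  have h2 : Module.finrank ℂ W.toSubmodule = 1 := by omega
  obtain ⟨v, hv0, hv⟩ := finrank_eq_one_iff'.1 h2
  have hv0' : (v : Fin 2 → ℂ) ≠ 0 := fun e => hv0 (Subtype.ext e)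
  refine hcon ⟨v, hv0', fun σ => ?_⟩
  have hm : Deformation.matrixRepresentation ρ σ (v : Fin 2 → ℂ) ∈ W.toSubmodule :=
    W.apply_mem_toSubmodule σ v.2
  obtain ⟨c, hc⟩ := hv ⟨_, hm⟩
  refine ⟨c, ?_⟩
  have hc' : c • (v : Fin 2 → ℂ) = Deformation.matrixRepresentation ρ σ (v : Fin 2 → ℂ) :=
    congrArg Subtype.val hc
  rw [Deformation.matrixRepresentation_apply] at hc'
  exact hc'.symm

/-- a reducible `ρ` has trace `χ₁ + χ₂`. -/
theorem exists_characters_of_not_irreducible {Γ : Type} [Group Γ] (ρ : Γ →* GL (Fin 2) ℂ)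
    (h : ¬ (Deformation.matrixRepresentation ρ).IsIrreducible) :
    ∃ χ₁ χ₂ : Γ →* ℂˣ, (∀ σ, ρ σ = 1 → χ₁ σ = 1 ∧ χ₂ σ = 1) ∧
      ∀ σ, ((ρ σ : GL (Fin 2) ℂ) : Matrix (Fin 2) (Fin 2) ℂ).trace = (χ₁ σ : ℂ) + (χ₂ σ : ℂ) := by
  obtain ⟨v, hv, hev⟩ := Irred.exists_eigenvector ρ h
  let M : Γ → Matrix (Fin 2) (Fin 2) ℂ := fun g => ((ρ g : GL (Fin 2) ℂ) : Matrix (Fin 2) (Fin 2) ℂ)
  have hM1 : M 1 = 1 := by simp [M]
  have hMmul : ∀ g h : Γ, M (g * h) = M g * M h := fun g h => by simp [M]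
  choose c hc using hev
  have hc' : ∀ g : Γ, (M g).mulVec v = c g • v := hc
  have hinj : ∀ x y : ℂ, x • v = y • v → x = y := by
    intro x y hxy
    have : (x - y) • v = 0 := by rw [sub_smul, hxy, sub_self]
    rcases smul_eq_zero.mp this with h0 | h0
    · exact sub_eq_zero.mp h0
    · exact absurd h0 hv
  have hc1 : c 1 = 1 := by
    apply hinj
    rw [← hc', hM1, Matrix.one_mulVec, one_smul]
  have hcmul : ∀ g h : Γ, c (g * h) = c g * c h := by
    intro g h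
    apply hinj
    rw [← hc', hMmul, ← Matrix.mulVec_mulVec, hc', Matrix.mulVec_smul, hc', smul_smul, mul_comm]
  let χ : Γ →* ℂ := { toFun := c, map_one' := hc1, map_mul' := hcmul }
  let χ₁ : Γ →* ℂˣ := χ.toHomUnits
  let δ : Γ →* ℂˣ := Matrix.GeneralLinearGroup.det.comp ρ
  have hχ₁ : ∀ g, ((χ₁ g : ℂˣ) : ℂ) = c g := fun g => rfl
  have hδ : ∀ g, ((δ g : ℂˣ) : ℂ) = (M g).det := fun g => rfl
  refine ⟨χ₁, δ / χ₁, fun σ hσ => ?_, fun g => ?_⟩
  · have h1 : χ₁ σ = 1 := by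
      apply Units.ext
      rw [hχ₁, Units.val_one]
      apply hinj
      have : M σ = 1 := by simp [M, hσ]
      rw [← hc', this, Matrix.one_mulVec, one_smul]
    have h2 : δ σ = 1 := by
      show Matrix.GeneralLinearGroup.det (ρ σ) = 1
      rw [hσ, map_one]
    exact ⟨h1, by rw [MonoidHom.div_apply, h1, h2, div_one]⟩
  · have hdet : (M g - c g • (1 : Matrix (Fin 2) (Fin 2) ℂ)).det = 0 := by
      rw [← Matrix.exists_mulVec_eq_zero_iff]
      refine ⟨v, hv, ?_⟩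
      rw [Matrix.sub_mulVec, hc', Matrix.smul_mulVec, Matrix.one_mulVec, sub_self]
    have hne : c g ≠ 0 := by rw [← hχ₁]; exact (χ₁ g).ne_zero
    rw [Matrix.det_fin_two] at hdet
    simp only [Matrix.sub_apply, Matrix.smul_apply, Matrix.one_apply_eq, smul_eq_mul, mul_one,
      ne_eq, Fin.isValue, zero_ne_one, one_ne_zero, not_false_eq_true, Matrix.one_apply_ne,
      mul_zero, sub_zero] at hdet
    rw [MonoidHom.div_apply, Units.val_div_eq_div_val, hχ₁, hδ]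
    show (M g).trace = _
    rw [Matrix.trace_fin_two, Matrix.det_fin_two, eq_comm, ← sub_eq_zero]
    field_simp
    linear_combination hdet

theorem irreducible_of_attached {N : ℕ} {a e : ℕ → ℂ}
    (rk : ∀ σ : ℂ →+* ℂ, UpperDens (fun p => ¬ p ∣ N) (fun p => ‖σ (a p)‖ ^ 2) 1)
    (hN : N ≠ 0) (S : Finset ℕ) (ρ : GQ →* GL (Fin 2) ℂ) (hρ : IsAttached a e S ρ) :
    (Deformation.matrixRepresentation ρ).IsIrreducible := by
  by_contra hirr
  obtain ⟨χ₁, χ₂, h1, htr⟩ := exists_characters_of_not_irreducible ρ hirr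
  obtain ⟨⟨L, hL, hlev⟩, hgood⟩ := hρ
  refine no_characters rk χ₁ χ₂ ⟨L, hL, fun σ hσ => (h1 σ (hlev σ hσ)).1⟩
    ⟨L, hL, fun σ hσ => (h1 σ (hlev σ hσ)).2⟩ (S ∪ N.primeFactors) ?_ ?_ ?_ ?_
  · intro p hp hpT hdvd
    exact hpT (Finset.mem_union_right _ (Nat.mem_primeFactors.mpr ⟨hp, hdvd, hN⟩))
  · intro p hp hpT A hA σ hσ
    exact (h1 σ ((hgood p hp (fun hh => hpT (Finset.mem_union_left _ hh)) A hA).1 σ hσ)).1
  · intro p hp hpT A hA σ hσ
    exact (h1 σ ((hgood p hp (fun hh => hpT (Finset.mem_union_left _ hh)) A hA).1 σ hσ)).2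
  · intro p hp hpT A σ hA hσ
    rw [← htr σ]
    exact (((hgood p hp (fun hh => hpT (Finset.mem_union_left _ hh)) A hA).2 σ hσ).1).symm

end Fermat.Agent.S48.R48
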