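import Fermat.Agent.S48.R48.Defs
import Fermat.Agent.S48.FIN.AlgInt
import Fermat.Agent.ES.D.ZbarQuot

/-!
# S48 / R48 / Kill : reduction maps `φ : ℤ̄ → k`   (task S48/R48-Kill)

Sketches.
* `exists_bound_of_ne_zero` : `z ≠ 0` integral; the constant coefficient `c₀ ≠ 0` of `minpoly ℤ z` is a
  multiple of `z` in `ℤ̄` (`c₀ = - z * (z^(n-1) + ...)`), so `φ z = 0 ⟹ φ c₀ = 0 ⟹ ℓ ∣ c₀`; `ℓ₁ = |c₀|`.
* `phi_injOn_roots` : `w = u * v^(M-1)` satisfies `w^M = 1`, `φ w = 1`; if `w ≠ 1` then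
  `1 + w + ... + w^(M-1) = 0`, apply `φ`: `(M : k) = 0`, so `ℓ ∣ M`.
* `exists_phi` : `𝔪 ⊇ I` maximal, `k = ℤ̄ ⧸ 𝔪`; `CharP k ℓ` since `(ℓ : k) = 0`, `ℓ` prime, `k` nontrivial
  (`CharP.ofPrime...`/`ringChar` dvd); algebraically closed: `IsAlgClosed.of_exists_root`: lift a monic
  polynomial to a monic polynomial over `ℤ̄`, take a root in `ℂ`; it is integral over `ℤ̄`, hence over `ℤ`
  (`isIntegral_trans`), hence in `ℤ̄`.
* `exists_roots` : `ℂ` algebraically closed; roots of a monic polynomial with integral coefficients are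
  integral.
-/

set_option autoImplicit false

namespace Fermat.Agent.S48.R48

/-- A nonzero algebraic integer is killed by reduction maps of finitely many characteristics only. -/
theorem exists_bound_of_ne_zero (z : Zbar) (hz : z ≠ 0) :
    ∃ ℓ₁ : ℕ, ∀ ℓ : ℕ, ℓ.Prime → ℓ₁ < ℓ → ∀ (k : Type) [Field k] [CharP k ℓ] (φ : Zbar →+* k),
      φ z ≠ 0 := by
  obtain ⟨c, hc⟩ := FIN.exists_bound_ne_zero z hz
  exact ⟨c, fun ℓ _ hℓ k _ _ φ => hc ℓ k φ hℓ⟩

/-- Reduction is injective on roots of unity of order prime to `ℓ`. -/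
theorem phi_injOn_roots (ℓ : ℕ) (hℓ : ℓ.Prime) {k : Type} [Field k] [CharP k ℓ] (φ : Zbar →+* k)
    (M : ℕ) (hM : ¬ ℓ ∣ M) (u v : Zbar) (hu : u ^ M = 1) (hv : v ^ M = 1) (h : φ u = φ v) :
    u = v := by
  have hM0 : M ≠ 0 := by
    rintro rfl
    exact hM (dvd_zero _)
  obtain ⟨M', rfl⟩ : ∃ M', M = M' + 1 := ⟨M - 1, by omega⟩
  have hw : (u * v ^ M') ^ (M' + 1) = 1 := by
    rw [mul_pow, hu, one_mul, ← pow_mul, mul_comm, pow_mul, hv, one_pow]
  have hφw : φ (u * v ^ M') = 1 := by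
    rw [map_mul, map_pow, h, ← pow_succ', ← map_pow, hv, map_one]
  have hw1 : u * v ^ M' = 1 := by
    by_contra hne
    have hgeom := mul_geom_sum (u * v ^ M') (M' + 1)
    rw [hw, sub_self] at hgeom
    have hsum : ∑ i ∈ Finset.range (M' + 1), (u * v ^ M') ^ i = 0 :=
      (mul_eq_zero.mp hgeom).resolve_left (sub_ne_zero.mpr hne)
    have := congrArg φ hsum
    rw [map_sum, map_zero] at this
    simp only [map_pow, hφw, one_pow, Finset.sum_const, Finset.card_range, nsmul_eq_mul,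
      mul_one] at this
    exact hM ((CharP.cast_eq_zero_iff k ℓ _).mp this)
  calc u = u * v ^ (M' + 1) := by rw [hv, mul_one]
    _ = (u * v ^ M') * v := by rw [pow_succ, mul_assoc]
    _ = v := by rw [hw1, one_mul]

theorem span_natCast_ne_top (ℓ : ℕ) (hℓ : ℓ.Prime) : Ideal.span {(ℓ : Zbar)} ≠ ⊤ := by
  intro htop
  rw [Ideal.span_singleton_eq_top] at htop
  obtain ⟨x, hx⟩ := htop.exists_right_inv
  have hx' : (ℓ : ℂ) * (x : ℂ) = 1 := by
    have := congrArg (fun z : Zbar => (z : ℂ)) hx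
    simpa using this
  have hℓ0 : (ℓ : ℂ) ≠ 0 := Nat.cast_ne_zero.mpr hℓ.ne_zero
  have hxq : (x : ℂ) = algebraMap ℚ ℂ (1 / (ℓ : ℚ)) := by
    rw [eq_ratCast]
    push_cast
    field_simp
    linear_combination hx'
  have hint : IsIntegral ℤ (algebraMap ℚ ℂ (1 / (ℓ : ℚ))) := hxq ▸ x.2
  rw [isIntegral_algebraMap_iff (algebraMap ℚ ℂ).injective] at hint
  obtain ⟨n, hn⟩ := IsIntegrallyClosed.algebraMap_eq_of_integral hint
  have hℓq : (ℓ : ℚ) ≠ 0 := Nat.cast_ne_zero.mpr hℓ.ne_zero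
  have h1 : (ℓ : ℚ) * (n : ℚ) = 1 := by
    rw [eq_intCast] at hn
    rw [hn]
    field_simp
  have h2 : (ℓ : ℤ) * n = 1 := by exact_mod_cast h1
  have h3 : (ℓ : ℤ) ∣ 1 := ⟨n, h2.symm⟩
  have h4 : ℓ ∣ 1 := by exact_mod_cast h3
  exact hℓ.one_lt.ne' (Nat.dvd_one.mp h4)

/-- Every proper ideal containing `ℓ` is killed by a reduction map onto an algebraically closed field of
characteristic `ℓ`. -/
theorem exists_phi (ℓ : ℕ) (hℓ : ℓ.Prime) (I : Ideal Zbar) (hI : I ≠ ⊤) (hℓI : (ℓ : Zbar) ∈ I) :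
    ∃ (k : Type) (_ : Field k) (_ : CharP k ℓ) (_ : IsAlgClosed k) (φ : Zbar →+* k),
      Function.Surjective φ ∧ ∀ x ∈ I, φ x = 0 := by
  obtain ⟨𝔪, h𝔪, hle⟩ := Ideal.exists_le_maximal I hI
  letI := Ideal.Quotient.field 𝔪
  refine ⟨Zbar ⧸ 𝔪, inferInstance, ?_, ES.D.isAlgClosed_quot 𝔪, Ideal.Quotient.mk 𝔪,
    Ideal.Quotient.mk_surjective, fun x hx => Ideal.Quotient.eq_zero_iff_mem.mpr (hle hx)⟩
  rw [CharP.charP_iff_prime_eq_zero hℓ, ← map_natCast (Ideal.Quotient.mk 𝔪)]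
  exact Ideal.Quotient.eq_zero_iff_mem.mpr (hle hℓI)

theorem hasModRepsW_of_hasModReps {N : ℕ} {a e : ℕ → ℂ} (h : HasModReps N a e) : HasModRepsW N a e := by
  obtain ⟨ℓ₀, h⟩ := h
  refine ⟨ℓ₀, fun ℓ hℓ hlt I hI hℓI X hX => ?_⟩
  obtain ⟨k, i1, i2, i3, φ, hφ, hker⟩ := exists_phi ℓ hℓ I hI hℓI
  obtain ⟨r, hr⟩ := h ℓ hℓ hlt k φ hφ
  exact ⟨k, i1, i2, i3, φ, r, hφ, fun x hx => hker x (hX x hx), hr⟩

/-- The roots of `X² - a X + e` are algebraic integers. -/
theorem exists_roots (a e : ℂ) (ha : IsIntegral ℤ a) (he : IsIntegral ℤ e) :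
    ∃ x y : Zbar, (x : ℂ) + y = a ∧ (x : ℂ) * y = e := by
  obtain ⟨x, hx⟩ : ∃ x : ℂ, x ^ 2 - a * x + e = 0 := by
    have hdeg : (Polynomial.X ^ 2 - Polynomial.C a * Polynomial.X +
        Polynomial.C e : Polynomial ℂ).degree ≠ 0 := by
      have : (Polynomial.X ^ 2 - Polynomial.C a * Polynomial.X + Polynomial.C e : Polynomial ℂ)
          = Polynomial.C 1 * Polynomial.X ^ 2 + Polynomial.C (-a) * Polynomial.X +
            Polynomial.C e := by
        simp only [Polynomial.C_neg, Polynomial.C_1]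
        ring
      rw [this, Polynomial.degree_quadratic one_ne_zero]
      decide
    obtain ⟨x, hx⟩ := IsAlgClosed.exists_root _ hdeg
    exact ⟨x, by simpa [Polynomial.IsRoot] using hx⟩
  have hxint : IsIntegral ℤ x := by
    apply isIntegral_trans (A := Zbar)
    let a' : Zbar := ⟨a, ha⟩
    let e' : Zbar := ⟨e, he⟩
    refine ⟨Polynomial.X ^ 2 - Polynomial.C a' * Polynomial.X + Polynomial.C e', ?_, ?_⟩
    · have : (Polynomial.X ^ 2 - Polynomial.C a' * Polynomial.X + Polynomial.C e' : Polynomial Zbar)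
          = Polynomial.C 1 * Polynomial.X ^ 2 + Polynomial.C (-a') * Polynomial.X +
            Polynomial.C e' := by
        simp only [Polynomial.C_neg, Polynomial.C_1]
        ring
      rw [this, Polynomial.Monic, Polynomial.leadingCoeff_quadratic one_ne_zero]
    · simp only [Polynomial.eval₂_add, Polynomial.eval₂_sub, Polynomial.eval₂_pow,
        Polynomial.eval₂_X, Polynomial.eval₂_mul, Polynomial.eval₂_C]
      exact hx
  refine ⟨⟨x, hxint⟩, ⟨a - x, ha.sub hxint⟩, ?_, ?_⟩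
  · simp
  · change x * (a - x) = e
    linear_combination -hx

/-- two factorisations of the same quadratic polynomial over a field. -/
theorem roots_eq_or {k : Type} [Field k] {x y x' y' : k} (h1 : x + y = x' + y')
    (h2 : x * y = x' * y') : (x = x' ∧ y = y') ∨ (x = y' ∧ y = x') := by
  have h : (x - x') * (x - y') = 0 := by
    linear_combination x * h1 - h2
  rcases mul_eq_zero.mp h with h | h
  · left
    have hx := sub_eq_zero.mp h
    exact ⟨hx, by rw [hx] at h1; exact add_left_cancel h1⟩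
  · right
    have hx := sub_eq_zero.mp h
    refine ⟨hx, ?_⟩
    rw [hx, add_comm x' y'] at h1
    exact add_left_cancel h1

end Fermat.Agent.S48.R48
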