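import Fermat.Agent.S48.R48.StepF
import Fermat.Agent.S48.LF.Main
import Fermat.Agent.S48.FIN.Mat

/-!
# S48 / R48 / Lift : the complex representation attached to a large prime `ℓ`   (task S48/R48-Lift)

`m₀` from `stepE`, `stepF`, `m₁` from `roots_of_unity`, `ℓ₀` from `h.gal`; `ℓ₁ = max ℓ₀ (max (6 m₀) m₁)`.
Let `ℓ > ℓ₁` be prime.  `h.gal` with `I = span {ℓ}`, `X = ∅` gives `k, φ` (surjective), `r`, `hr : IsModRep …`.
`stepF_mod` : `ℓ ∤ |G|`, `G = r.range` (finite).  `LF.main ℓ hℓ φ hφ (G := r.range) hG r.range.subtype` gives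
`R : r.range →* GL₂(ℂ)`; `ρ = R.comp r.rangeRestrict`.  Finite level: `level_rangeRestrict`, `level_comp`.  Unramified outside
`S = insert ℓ N.primeFactors`: `hr.unram`.
Frobenius `σ` at `p ∉ S`, `g = r.rangeRestrict σ`; `t, d : Zbar` trace and determinant of `R g`, `φ t = tr r σ = φ (x + y)`,
`φ d = φ (x y)`, where `x, y : Zbar`, `x + y = a p`, `x y = e p`, `x^m₁ = y^m₁ = 1`.  Let `u, v : Zbar` be the roots of
`X² - t X + d` (`exists_roots`).  `(R g)^|G| = 1` implies `u^|G| = v^|G| = 1` (`pow_eq_one_of_matrix_pow`).  By `roots_eq_or`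
`{φ u, φ v} = {φ x, φ y}`; `phi_injOn_roots` with `M = m₁ |G|` (prime to `ℓ` : `ℓ > m₁ > 0`, `ℓ ∤ |G|`): `{u, v} = {x, y}`.
So `tr R g = a p`, `det R g = e p`.
-/

set_option autoImplicit false

namespace Fermat.Agent.S48.R48

/-- the eigenvalues of a matrix of finite order are roots of unity. -/
theorem pow_eq_one_of_matrix_pow {K : Type} [Field K] (M : Matrix (Fin 2) (Fin 2) K) (n : ℕ)
    (hM : M ^ n = 1) (u v : K) (ht : M.trace = u + v) (hd : M.det = u * v) :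
    u ^ n = 1 ∧ v ^ n = 1 :=
  ⟨FIN.Mat_pow_eq_one_of_root M n hM u (by rw [ht, hd]; ring),
    FIN.Mat_pow_eq_one_of_root M n hM v (by rw [ht, hd]; ring)⟩

theorem exists_lift {N : ℕ} {a e : ℕ → ℂ} (h : Data N a e) :
    ∃ ℓ₁ : ℕ, ∀ ℓ : ℕ, ℓ.Prime → ℓ₁ < ℓ →
      ∃ ρ : GQ →* GL (Fin 2) ℂ, IsAttached a e (insert ℓ N.primeFactors) ρ := by
  obtain ⟨m₀, hm₀, hE⟩ := stepE h
  have hF := stepF h m₀ hm₀ hE
  obtain ⟨m₁, hm₁, hroots⟩ := roots_of_unity h m₀ hm₀ hF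
  obtain ⟨ℓ₀, hgal⟩ := h.gal
  refine ⟨max ℓ₀ (max (6 * m₀) m₁), fun ℓ hℓ hbig => ?_⟩
  have hb1 : ℓ₀ < ℓ := lt_of_le_of_lt (le_max_left _ _) hbig
  have hb2 : 6 * m₀ < ℓ :=
    lt_of_le_of_lt ((le_max_left _ _).trans (le_max_right _ _)) hbig
  have hb3 : m₁ < ℓ := lt_of_le_of_lt ((le_max_right _ _).trans (le_max_right _ _)) hbig
  obtain ⟨k, _, _, _, φ, r, hφ, -, hr⟩ := hgal ℓ hℓ hb1 (Ideal.span {(ℓ : Zbar)})
    (span_natCast_ne_top ℓ hℓ) (Ideal.mem_span_singleton_self _) ∅ (by simp)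
  obtain ⟨-, hcard⟩ := stepF_mod h m₀ hm₀ hE ℓ hℓ hb2 φ r hr
  have hfin : Finite r.range := finite_range r hr.level
  obtain ⟨R, hR⟩ := LF.main ℓ hℓ φ hφ (G := r.range) hcard r.range.subtype
  refine ⟨R.comp r.rangeRestrict, level_comp _ _ (level_rangeRestrict r hr.level),
    fun p hp hpS A hA => ?_⟩
  have hpl : p ≠ ℓ := fun hh => hpS (hh ▸ Finset.mem_insert_self _ _)
  have hpN : ¬ p ∣ N := fun hh =>
    hpS (Finset.mem_insert_of_mem (Nat.mem_primeFactors.mpr ⟨hp, hh, h.N_ne⟩))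
  have hpNl : ¬ p ∣ N * ℓ := fun hh =>
    (hp.dvd_mul.mp hh).elim hpN (fun h' => hpl ((Nat.prime_dvd_prime_iff_eq hp hℓ).mp h'))
  refine ⟨fun σ hσ => ?_, fun σ hσ => ?_⟩
  · have h1 : r.rangeRestrict σ = 1 := Subtype.ext (hr.unram p hp hpNl A hA σ hσ)
    show R (r.rangeRestrict σ) = 1
    rw [h1, map_one]
  · show ((R (r.rangeRestrict σ) : GL (Fin 2) ℂ) : Matrix (Fin 2) (Fin 2) ℂ).trace = a p ∧
      ((R (r.rangeRestrict σ) : GL (Fin 2) ℂ) : Matrix (Fin 2) (Fin 2) ℂ).det = e p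
    set g := r.rangeRestrict σ with hg
    obtain ⟨t, d, ht, hd, hφt, hφd⟩ := hR g
    obtain ⟨x, y, hxy, hxy', hx1, hy1⟩ := hroots p hp hpN
    have hxi : IsIntegral ℤ x := IsIntegral.of_pow hm₁ (by rw [hx1]; exact isIntegral_one)
    have hyi : IsIntegral ℤ y := IsIntegral.of_pow hm₁ (by rw [hy1]; exact isIntegral_one)
    obtain ⟨hfr1, hfr2⟩ := hr.frob p hp hpNl A hA σ hσ
      ((⟨x, hxi⟩ : Zbar) + ⟨y, hyi⟩) ((⟨x, hxi⟩ : Zbar) * ⟨y, hyi⟩) hxy hxy'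
    obtain ⟨u, v, huv, huv'⟩ := exists_roots (t : ℂ) (d : ℂ) t.2 d.2
    have hpow : ((R g : GL (Fin 2) ℂ) : Matrix (Fin 2) (Fin 2) ℂ) ^ (Nat.card r.range) = 1 := by
      rw [← Units.val_pow_eq_pow_val, ← map_pow, pow_card_eq_one', map_one, Units.val_one]
    obtain ⟨hu1, hv1⟩ := pow_eq_one_of_matrix_pow _ _ hpow (u : ℂ) v (by rw [← ht, huv])
      (by rw [← hd, huv'])
    have huvZ : u + v = t := Subtype.ext huv
    have huvZ' : u * v = d := Subtype.ext huv'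
    have hrg : ((r.range.subtype g : GL (Fin 2) k) : Matrix (Fin 2) (Fin 2) k)
        = ((r σ : GL (Fin 2) k) : Matrix (Fin 2) (Fin 2) k) := rfl
    rw [hrg] at hφt hφd
    have e1 : φ u + φ v = φ ⟨x, hxi⟩ + φ ⟨y, hyi⟩ := by
      rw [← map_add, ← map_add, huvZ, hφt, hfr1]
    have e2 : φ u * φ v = φ ⟨x, hxi⟩ * φ ⟨y, hyi⟩ := by
      rw [← map_mul, ← map_mul, huvZ', hφd, hfr2]
    have hM : ¬ ℓ ∣ m₁ * Nat.card r.range := fun hh =>
      (hℓ.dvd_mul.mp hh).elim (fun h' => absurd (Nat.le_of_dvd hm₁ h') (not_le.mpr hb3)) hcard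
    have hupow : u ^ (m₁ * Nat.card r.range) = 1 := Subtype.ext (by
      show (u : ℂ) ^ (m₁ * Nat.card r.range) = 1
      rw [mul_comm, pow_mul, hu1, one_pow])
    have hvpow : v ^ (m₁ * Nat.card r.range) = 1 := Subtype.ext (by
      show (v : ℂ) ^ (m₁ * Nat.card r.range) = 1
      rw [mul_comm, pow_mul, hv1, one_pow])
    have hxpow : (⟨x, hxi⟩ : Zbar) ^ (m₁ * Nat.card r.range) = 1 := Subtype.ext (by
      show x ^ (m₁ * Nat.card r.range) = 1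
      rw [pow_mul, hx1, one_pow])
    have hypow : (⟨y, hyi⟩ : Zbar) ^ (m₁ * Nat.card r.range) = 1 := Subtype.ext (by
      show y ^ (m₁ * Nat.card r.range) = 1
      rw [pow_mul, hy1, one_pow])
    rcases roots_eq_or e1 e2 with ⟨h1, h2⟩ | ⟨h1, h2⟩
    · have hux := phi_injOn_roots ℓ hℓ φ _ hM u ⟨x, hxi⟩ hupow hxpow h1
      have hvy := phi_injOn_roots ℓ hℓ φ _ hM v ⟨y, hyi⟩ hvpow hypow h2
      have hux' : (u : ℂ) = x := congrArg Subtype.val hux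
      have hvy' : (v : ℂ) = y := congrArg Subtype.val hvy
      exact ⟨by rw [← ht, ← huv, hux', hvy', hxy], by rw [← hd, ← huv', hux', hvy', hxy']⟩
    · have huy := phi_injOn_roots ℓ hℓ φ _ hM u ⟨y, hyi⟩ hupow hypow h1
      have hvx := phi_injOn_roots ℓ hℓ φ _ hM v ⟨x, hxi⟩ hvpow hxpow h2
      have huy' : (u : ℂ) = y := congrArg Subtype.val huy
      have hvx' : (v : ℂ) = x := congrArg Subtype.val hvx
      exact ⟨by rw [← ht, ← huv, huy', hvx', add_comm, hxy],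
        by rw [← hd, ← huv', huy', hvx', mul_comm, hxy']⟩

end Fermat.Agent.S48.R48
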