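import Fermat.Agent.S48.R48.Basic
import Fermat.Agent.Lib.FrobDensity.Apps
import Fermat.Agent.S48.FIN.Glue

/-!
# S48 / R48 / Two : comparison of two attached representations   (task S48/R48-Two)

`trace_det_eq` : `FD.exists_frobenius_of_finiteLevel (ρ.prod ρ') (level_prod …) σ (S ∪ S')` gives a prime `q ∉ S ∪ S'`, a Frobenius
`φ` at `q` and `j` with `ρ σ = (ρ φ)^j`, `ρ' σ = (ρ' φ)^j`; `ρ φ`, `ρ' φ` have the same trace `a q` and determinant `e q`;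
`trace_pow_eq`.
`eq_one_of_trace` : Cayley-Hamilton `(M - 1)² = 0`; `M = 1 + ν`, `ν² = 0`, `M^n = 1 + n ν`.
`attached_of_two` : for `p ∉ S ∩ S'`: if `p ∉ S` nothing to do; if `p ∉ S'`: for `σ` in inertia `ρ' σ = 1`, so `tr ρ σ = 2`, `det ρ σ = 1`,
`ρ σ` of finite order (`finite_range`), so `ρ σ = 1`; for a Frobenius `σ`: `tr ρ σ = tr ρ' σ = a p`, same for `det`.
-/

set_option autoImplicit false

namespace Fermat.Agent.S48.R48

theorem trace_pow_eq {K : Type} [Field K] (M M' : Matrix (Fin 2) (Fin 2) K)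
    (ht : M.trace = M'.trace) (hd : M.det = M'.det) (j : ℕ) :
    (M ^ j).trace = (M' ^ j).trace ∧ (M ^ j).det = (M' ^ j).det :=
  FIN.trace_det_pow_eq M M' ht hd j

theorem eq_one_of_trace (M : Matrix (Fin 2) (Fin 2) ℂ) (n : ℕ) (hn : 0 < n) (hM : M ^ n = 1)
    (ht : M.trace = 2) (hd : M.det = 1) : M = 1 :=
  FIN.eq_one_of_unipotent M n hn hM ht hd

theorem trace_det_eq {a e : ℕ → ℂ} {S S' : Finset ℕ} {ρ ρ' : GQ →* GL (Fin 2) ℂ}
    (h : IsAttached a e S ρ) (h' : IsAttached a e S' ρ') (σ : GQ) :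
    ((ρ σ : GL (Fin 2) ℂ) : Matrix (Fin 2) (Fin 2) ℂ).trace =
        ((ρ' σ : GL (Fin 2) ℂ) : Matrix (Fin 2) (Fin 2) ℂ).trace ∧
      ((ρ σ : GL (Fin 2) ℂ) : Matrix (Fin 2) (Fin 2) ℂ).det =
        ((ρ' σ : GL (Fin 2) ℂ) : Matrix (Fin 2) (Fin 2) ℂ).det := by
  classical
  refine FIN.trace_det_eq_of_frob ρ ρ' h.1 h'.1 (S ∪ S') (fun q hq hqT A hA φ hφ => ?_) σ
  have hqS : q ∉ S := fun hh => hqT (Finset.mem_union_left _ hh)
  have hqS' : q ∉ S' := fun hh => hqT (Finset.mem_union_right _ hh)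
  have g1 := (h.2 q hq hqS A hA).2 φ hφ
  have g2 := (h'.2 q hq hqS' A hA).2 φ hφ
  exact ⟨g1.1.trans g2.1.symm, g1.2.trans g2.2.symm⟩

theorem attached_of_two {a e : ℕ → ℂ} {S S' : Finset ℕ} {ρ ρ' : GQ →* GL (Fin 2) ℂ}
    (h : IsAttached a e S ρ) (h' : IsAttached a e S' ρ') : IsAttached a e (S ∩ S') ρ := by
  classical
  refine ⟨h.1, fun p hp hpS A hA => ?_⟩
  by_cases hpS1 : p ∈ S
  · have hpS' : p ∉ S' := fun hh => hpS (Finset.mem_inter.mpr ⟨hpS1, hh⟩)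
    have g := h'.2 p hp hpS' A hA
    refine ⟨fun σ hσ => ?_, fun σ hσ => ?_⟩
    · have h1 := g.1 σ hσ
      have h2 := trace_det_eq h h' σ
      rw [h1] at h2
      have ht : ((ρ σ : GL (Fin 2) ℂ) : Matrix (Fin 2) (Fin 2) ℂ).trace = 2 := by
        rw [h2.1]; simp
      have hd : ((ρ σ : GL (Fin 2) ℂ) : Matrix (Fin 2) (Fin 2) ℂ).det = 1 := by
        rw [h2.2]; simp
      have hpow : ((ρ σ : GL (Fin 2) ℂ) : Matrix (Fin 2) (Fin 2) ℂ) ^ Nat.card ρ.range = 1 := by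
        have := FIN.pow_card_range_eq_one ρ h.1 σ
        have h3 := congrArg (fun g : GL (Fin 2) ℂ => (g : Matrix (Fin 2) (Fin 2) ℂ)) this
        simpa using h3
      have := eq_one_of_trace _ _ (FIN.card_range_pos ρ h.1) hpow ht hd
      exact Units.ext this
    · have h2 := trace_det_eq h h' σ
      have h3 := g.2 σ hσ
      exact ⟨h2.1.trans h3.1, h2.2.trans h3.2⟩
  · exact h.2 p hp hpS1 A hA

end Fermat.Agent.S48.R48
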