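import Fermat.Agent.S48.R48.Lift
import Fermat.Agent.S48.R48.Two
import Fermat.Agent.S48.R48.Irred

/-!
# S48 / R48 : the right-hand side (no modular forms)

Blueprint: board #1262 (helper48), steps FDd, (A), (RU), (D), (E), (F), (H), (I), with LF instead of (G)
(see #1289).  Owner of this file: helper48 (co-lead helper46).
-/

set_option autoImplicit false

namespace Fermat.Agent.S48.R48

/-- **(I6)**, from the weak form (I4*) of the Galois input. -/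
theorem main_of_data {N : ℕ} {a e : ℕ → ℂ} (h : Data N a e) :
    ∃ ρ : GQ →* GL (Fin 2) ℂ, GaloisFactorsThroughFiniteLevel ρ ∧
      (Deformation.matrixRepresentation ρ).IsIrreducible ∧
      ∀ p : ℕ, p.Prime → ¬ p ∣ N →
        ∀ A : ValuationSubring Qb, A.LiesOverPrime p →
          (∀ σ ∈ A.inertiaSubgroupIn ℚ, ρ σ = 1) ∧
          ∀ σ : GQ, A.IsFrobeniusAt σ p →
            ((ρ σ : GL (Fin 2) ℂ) : Matrix (Fin 2) (Fin 2) ℂ).trace = a p ∧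
            ((ρ σ : GL (Fin 2) ℂ) : Matrix (Fin 2) (Fin 2) ℂ).det = e p := by
  obtain ⟨ℓ₁, hℓ₁⟩ := exists_lift h
  obtain ⟨ℓ, hℓ, hℓp⟩ := Nat.exists_infinite_primes (ℓ₁ + 1)
  obtain ⟨ℓ', hℓ', hℓp'⟩ := Nat.exists_infinite_primes (ℓ + 1)
  obtain ⟨ρ, hρ⟩ := hℓ₁ ℓ hℓp (by omega)
  obtain ⟨ρ', hρ'⟩ := hℓ₁ ℓ' hℓp' (by omega)
  have h2 := attached_of_two hρ hρ'
  refine ⟨ρ, h2.1, irreducible_of_attached h.rk h.N_ne _ ρ h2, fun p hp hpN => h2.2 p hp ?_⟩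
  intro hmem
  rw [Finset.mem_inter, Finset.mem_insert, Finset.mem_insert] at hmem
  have hnot : p ∉ N.primeFactors := fun hh => hpN (Nat.dvd_of_mem_primeFactors hh)
  rcases hmem with ⟨h1 | h1, h3 | h3⟩
  · omega
  · exact hnot h3
  · exact hnot h1
  · exact hnot h1

/-- **(I6)** -/
theorem main (N : ℕ) (hN : N ≠ 0) (a e : ℕ → ℂ)
    (he : ∃ n : ℕ, 0 < n ∧ ∀ p : ℕ, p.Prime → ¬ p ∣ N → e p ^ n = 1)
    (hint : ∀ p : ℕ, p.Prime → ¬ p ∣ N → IsIntegral ℤ (a p))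
    (hRK : ∀ σ : ℂ →+* ℂ, UpperDens (fun p => ¬ p ∣ N) (fun p => ‖σ (a p)‖ ^ 2) 1)
    (hX : ∀ η : ℝ, 0 < η → ∃ X : Finset ℂ, UpperDens (fun p => ¬ p ∣ N ∧ a p ∉ X) (fun _ => 1) η)
    (hGal : HasModReps N a e) :
    ∃ ρ : GQ →* GL (Fin 2) ℂ, GaloisFactorsThroughFiniteLevel ρ ∧
      (Deformation.matrixRepresentation ρ).IsIrreducible ∧
      ∀ p : ℕ, p.Prime → ¬ p ∣ N →
        ∀ A : ValuationSubring Qb, A.LiesOverPrime p →
          (∀ σ ∈ A.inertiaSubgroupIn ℚ, ρ σ = 1) ∧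
          ∀ σ : GQ, A.IsFrobeniusAt σ p →
            ((ρ σ : GL (Fin 2) ℂ) : Matrix (Fin 2) (Fin 2) ℂ).trace = a p ∧
            ((ρ σ : GL (Fin 2) ℂ) : Matrix (Fin 2) (Fin 2) ℂ).det = e p :=
  main_of_data ⟨hN, he, hint, hRK, hX, hasModRepsW_of_hasModReps hGal⟩

end Fermat.Agent.S48.R48
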