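import Mathlib

/-!
# S48 / R48 / Primorial   (task S48/R48-Primorial; Mathlib only)

`Q = ∏_{q ∈ P} q`, `P` a finite set of primes with `|P| ≥ 2` and `∑_{q ∈ P} 1/q ≥ log (2/η)`
(`Nat.Primes.not_summable_one_div` : the partial sums are unbounded).
* `Φ_Q(1) = 1` : `Polynomial.eval_one_cyclotomic_not_prime_pow` (`Q` has two prime factors).
* `φ(d)/d = ∏_{q ∣ d} (1 - 1/q)` (`Nat.totient_eq_mul_prod_factors`) `≤ ∏_{q ∈ P} (1 - 1/q) ≤ exp (-∑ 1/q) ≤ η/2`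
  for `Q ∣ d`, `d ≠ 0`, and `d ≤ 2 (d - 1)` for `d ≥ 2`.
-/

set_option autoImplicit false

namespace Fermat.Agent.S48.R48

theorem exists_primorial (η : ℝ) (hη : 0 < η) :
    ∃ Q : ℕ, 2 ≤ Q ∧ (Polynomial.cyclotomic Q ℤ).eval 1 = 1 ∧
      ∀ d : ℕ, 2 ≤ d → Q ∣ d → (Nat.totient d : ℝ) ≤ η * ((d : ℝ) - 1) := by
  classical
  set f : ℕ → ℝ := Set.indicator {p : ℕ | p.Prime} (fun n : ℕ => (1 : ℝ) / n) with hf
  have hf0 : ∀ n, 0 ≤ f n := by
    intro n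
    apply Set.indicator_nonneg
    intro x _
    positivity
  have htend := (not_summable_iff_tendsto_nat_atTop_of_nonneg hf0).mp not_summable_one_div_on_primes
  obtain ⟨n, hn4, hn⟩ : ∃ n : ℕ, 4 ≤ n ∧ Real.log (2 / η) ≤ ∑ i ∈ Finset.range n, f i := by
    have h1 := htend.eventually (Filter.eventually_ge_atTop (Real.log (2 / η)))
    obtain ⟨n, hn⟩ := (h1.and (Filter.eventually_ge_atTop 4)).exists
    exact ⟨n, hn.2, hn.1⟩
  set P : Finset ℕ := (Finset.range n).filter Nat.Prime with hP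
  have hsum : ∑ i ∈ Finset.range n, f i = ∑ q ∈ P, (1 : ℝ) / q := by
    rw [hP, Finset.sum_filter]
    apply Finset.sum_congr rfl
    intro i _
    simp only [hf, Set.indicator_apply, Set.mem_ofPred_eq]
  have hPprime : ∀ q ∈ P, q.Prime := fun q hq => (Finset.mem_filter.mp hq).2
  have h2P : 2 ∈ P := Finset.mem_filter.mpr ⟨Finset.mem_range.mpr (by omega), Nat.prime_two⟩
  have h3P : 3 ∈ P := Finset.mem_filter.mpr ⟨Finset.mem_range.mpr (by omega), Nat.prime_three⟩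
  set Q : ℕ := ∏ q ∈ P, q with hQ
  have hdvd : ∀ q ∈ P, q ∣ Q := fun q hq => Finset.dvd_prod_of_mem _ hq
  have hQpos : 0 < Q := Finset.prod_pos fun q hq => (hPprime q hq).pos
  refine ⟨Q, Nat.le_of_dvd hQpos (hdvd 2 h2P), ?_, ?_⟩
  · apply Polynomial.eval_one_cyclotomic_not_prime_pow
    intro p hp k hk
    have e2 : 2 ∣ p ^ k := hk ▸ hdvd 2 h2P
    have e3 : 3 ∣ p ^ k := hk ▸ hdvd 3 h3P
    have a2 := (Nat.prime_dvd_prime_iff_eq Nat.prime_two hp).mp (Nat.prime_two.dvd_of_dvd_pow e2)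
    have a3 := (Nat.prime_dvd_prime_iff_eq Nat.prime_three hp).mp (Nat.prime_three.dvd_of_dvd_pow e3)
    omega
  · intro d hd hQd
    have hd0 : d ≠ 0 := by omega
    have hsub : P ⊆ d.primeFactors := by
      intro q hq
      rw [Nat.mem_primeFactors]
      exact ⟨hPprime q hq, (hdvd q hq).trans hQd, hd0⟩
    have htot : (Nat.totient d : ℝ) = d * ∏ q ∈ d.primeFactors, (1 - (q : ℝ)⁻¹) := by
      have := Nat.totient_eq_mul_prod_factors d
      have h' : ((Nat.totient d : ℚ) : ℝ) = ((d * ∏ q ∈ d.primeFactors, (1 - (q : ℚ)⁻¹) : ℚ) : ℝ) := by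
        rw [this]
      push_cast at h'
      exact h'
    have hfac : ∀ q ∈ d.primeFactors, 0 ≤ 1 - (q : ℝ)⁻¹ ∧ 1 - (q : ℝ)⁻¹ ≤ 1 := by
      intro q hq
      have hq1 : (1 : ℝ) ≤ q := by exact_mod_cast (Nat.prime_of_mem_primeFactors hq).one_lt.le
      have : (q : ℝ)⁻¹ ≤ 1 := inv_le_one_of_one_le₀ hq1
      have h0 : 0 ≤ (q : ℝ)⁻¹ := by positivity
      constructor <;> linarith
    have hle1 : ∏ q ∈ d.primeFactors, (1 - (q : ℝ)⁻¹) ≤ ∏ q ∈ P, (1 - (q : ℝ)⁻¹) := by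
      rw [← Finset.prod_sdiff hsub]
      have h1 : ∏ q ∈ d.primeFactors \ P, (1 - (q : ℝ)⁻¹) ≤ 1 :=
        Finset.prod_le_one (fun q hq => (hfac q (Finset.mem_sdiff.mp hq).1).1)
          (fun q hq => (hfac q (Finset.mem_sdiff.mp hq).1).2)
      have h2 : 0 ≤ ∏ q ∈ P, (1 - (q : ℝ)⁻¹) :=
        Finset.prod_nonneg fun q hq => (hfac q (hsub hq)).1
      calc _ ≤ 1 * ∏ q ∈ P, (1 - (q : ℝ)⁻¹) := mul_le_mul_of_nonneg_right h1 h2
        _ = _ := one_mul _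
    have hle2 : ∏ q ∈ P, (1 - (q : ℝ)⁻¹) ≤ Real.exp (- ∑ q ∈ P, (1 : ℝ) / q) := by
      rw [← Finset.sum_neg_distrib, Real.exp_sum]
      apply Finset.prod_le_prod (fun q hq => (hfac q (hsub hq)).1)
      intro q _
      rw [one_div]
      exact Real.one_sub_le_exp_neg _
    have hle3 : Real.exp (- ∑ q ∈ P, (1 : ℝ) / q) ≤ η / 2 := by
      have h1 : - ∑ q ∈ P, (1 : ℝ) / q ≤ - Real.log (2 / η) := by
        rw [← hsum]; linarith
      calc _ ≤ Real.exp (- Real.log (2 / η)) := Real.exp_le_exp.mpr h1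
        _ = η / 2 := by
          rw [Real.exp_neg, Real.exp_log (by positivity), inv_div]
    have hdR : (2 : ℝ) ≤ d := by exact_mod_cast hd
    rw [htot]
    calc (d : ℝ) * ∏ q ∈ d.primeFactors, (1 - (q : ℝ)⁻¹) ≤ d * (η / 2) :=
          mul_le_mul_of_nonneg_left (hle1.trans (hle2.trans hle3)) (by positivity)
      _ ≤ η * ((d : ℝ) - 1) := by nlinarith

end Fermat.Agent.S48.R48
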