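import Mathlib

/-!
# S48 / R48 / RU1 : the analytic half of (RU)   (task S48/R48-RU1; Mathlib only)

`exists_pow_near_one` (simultaneous recurrence on the torus): the sequence `k ↦ (z i ^ (M₀ * k))_i` lives in
the compact set `∏ closedBall 0 1` of `ι → ℂ`; a convergent subsequence (`IsCompact.tendsto_subseq`) is
Cauchy: there are `k₁ < k₂` with `‖z i ^ (M₀ k₂) - z i ^ (M₀ k₁)‖ < δ` for all `i`; as `‖z i‖ = 1` this is
`‖z i ^ (M₀ (k₂ - k₁)) - 1‖ < δ`; `n = M₀ (k₂ - k₁) ≥ M₀` (take `M₀ ≥ 1`).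

`exists_prod_gt_one` : split `ι` into `‖z i‖ > 1` (non-empty), `< 1`, `= 1`.  `P` is continuous at `0` and at `1`
with value `1`: there is `δ > 0` with `‖P(w)‖ ≥ 1/2`... more precisely, with `c = card ι`, choose `δ` such that
`‖w‖ < δ` or `‖w - 1‖ < δ` implies `‖P(w)‖ ≥ 1/2`.  `P` monic of degree `≥ 1`: `‖P(w)‖ → ∞` as `‖w‖ → ∞`
(`Polynomial.tendsto_norm_atTop`), so there is `R` with `‖w‖ ≥ R ⟹ ‖P(w)‖ ≥ 2 ^ (c+1)` (in particular `≥ 1`).
Choose `M₀` with `‖z i‖ ^ n < δ` (small ones) and `‖z i‖ ^ n ≥ R` (big ones) for all `n ≥ M₀`, then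
`n' ` from `exists_pow_near_one` applied to the `z i ^ n₀` of norm one.  The product is
`≥ 2^(c+1) * (1/2)^(c-1) > 1`.
-/

set_option autoImplicit false

namespace Fermat.Agent.S48.R48

theorem exists_pow_near_one {ι : Type} [Finite ι] (z : ι → ℂ) (hz : ∀ i, ‖z i‖ = 1) (δ : ℝ)
    (hδ : 0 < δ) (M₀ : ℕ) : ∃ n : ℕ, M₀ ≤ n ∧ 0 < n ∧ ∀ i, ‖z i ^ n - 1‖ < δ := by
  cases nonempty_fintype ι
  let x : ℕ → (ι → ℂ) := fun k i => z i ^ ((M₀ + 1) * k)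
  have hx : ∀ k, x k ∈ Metric.closedBall (0 : ι → ℂ) 1 := by
    intro k
    rw [mem_closedBall_zero_iff, pi_norm_le_iff_of_nonneg zero_le_one]
    intro i
    simp [x, hz]
  obtain ⟨a, -, φ, hφ, ha⟩ := (isCompact_closedBall (0 : ι → ℂ) 1).tendsto_subseq hx
  have hc : CauchySeq (x ∘ φ) := ha.cauchySeq
  obtain ⟨N, hN⟩ := Metric.cauchySeq_iff.mp hc δ hδ
  have h := hN (N + 1) (Nat.le_succ N) N le_rfl
  have hlt : φ N < φ (N + 1) := hφ (Nat.lt_succ_self N)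
  have hpos : 0 < φ (N + 1) - φ N := Nat.sub_pos_of_lt hlt
  refine ⟨(M₀ + 1) * (φ (N + 1) - φ N), ?_, Nat.mul_pos (Nat.succ_pos _) hpos, ?_⟩
  · calc M₀ ≤ (M₀ + 1) * 1 := by omega
      _ ≤ _ := Nat.mul_le_mul_left _ hpos
  · intro i
    have h1 : ‖x (φ (N + 1)) i - x (φ N) i‖ < δ := by
      refine lt_of_le_of_lt ?_ h
      rw [dist_eq_norm]
      exact norm_le_pi_norm (x (φ (N + 1)) - x (φ N)) i
    have h2 : x (φ (N + 1)) i - x (φ N) i
        = z i ^ ((M₀ + 1) * φ N) * (z i ^ ((M₀ + 1) * (φ (N + 1) - φ N)) - 1) := by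
      simp only [x]
      rw [mul_sub, mul_one, ← pow_add, ← Nat.mul_add, Nat.add_sub_cancel' hlt.le]
    rw [h2, norm_mul, norm_pow, hz, one_pow, one_mul] at h1
    exact h1

theorem exists_prod_gt_one {ι : Type} [Fintype ι] (z : ι → ℂ) (hbig : ∃ i, 1 < ‖z i‖)
    (P : Polynomial ℂ) (hP : P.Monic) (hdeg : 0 < P.natDegree) (h0 : P.eval 0 = 1)
    (h1 : P.eval 1 = 1) (n₀ : ℕ) (hn₀ : 0 < n₀) :
    ∃ n' : ℕ, 0 < n' ∧ 1 < ∏ i, ‖P.eval (z i ^ (n₀ * n'))‖ := by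
  classical
  obtain ⟨i₀, hi₀⟩ := hbig
  set c := Fintype.card ι with hc
  -- continuity at a point with value one
  have hcont : ∀ w₀ : ℂ, P.eval w₀ = 1 → ∃ δ > 0, ∀ w : ℂ, ‖w - w₀‖ < δ → (1 / 2 : ℝ) ≤ ‖P.eval w‖ := by
    intro w₀ hw₀
    have hc' : ContinuousAt (fun w => P.eval w) w₀ := P.continuous.continuousAt
    obtain ⟨δ, hδ, h⟩ := Metric.continuousAt_iff.mp hc' (1 / 2) (by norm_num)
    refine ⟨δ, hδ, fun w hw => ?_⟩
    have h2 := h (by rwa [dist_eq_norm])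
    rw [dist_eq_norm, hw₀] at h2
    have h3 : ‖(1 : ℂ)‖ ≤ ‖P.eval w‖ + ‖P.eval w - 1‖ := by
      have := norm_sub_le (P.eval w) (P.eval w - 1)
      simpa using this
    rw [norm_one] at h3
    linarith
  obtain ⟨δ₀, hδ₀, hP0⟩ := hcont 0 h0
  obtain ⟨δ₁, hδ₁, hP1⟩ := hcont 1 h1
  -- growth at infinity
  have hinf : Filter.Tendsto (fun w : ℂ => ‖P.eval w‖) (Filter.comap norm Filter.atTop) Filter.atTop := by
    apply Polynomial.tendsto_norm_atTop P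
    · rw [Polynomial.degree_eq_natDegree hP.ne_zero]; exact_mod_cast hdeg
    · exact Filter.tendsto_comap
  obtain ⟨R, hR⟩ : ∃ R : ℝ, ∀ w : ℂ, R ≤ ‖w‖ → (2 : ℝ) ^ (c + 1) ≤ ‖P.eval w‖ := by
    have h := hinf.eventually (Filter.eventually_ge_atTop ((2 : ℝ) ^ (c + 1)))
    rw [Filter.eventually_comap] at h
    obtain ⟨R, hR⟩ := Filter.eventually_atTop.mp h
    exact ⟨R, fun w hw => hR ‖w‖ hw w rfl⟩
  -- eventually big / small
  have hev : ∀ᶠ n' : ℕ in Filter.atTop, ∀ i, (1 < ‖z i‖ → R ≤ ‖z i ^ (n₀ * n')‖) ∧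
      (‖z i‖ < 1 → ‖z i ^ (n₀ * n')‖ < δ₀) := by
    rw [Filter.eventually_all]
    intro i
    apply Filter.Eventually.and
    · by_cases hi : 1 < ‖z i‖
      · have h2 : 1 < ‖z i‖ ^ n₀ := one_lt_pow₀ hi hn₀.ne'
        have h3 := (tendsto_pow_atTop_atTop_of_one_lt h2).eventually (Filter.eventually_ge_atTop R)
        filter_upwards [h3] with n hn _
        rwa [norm_pow, pow_mul]
      · exact Filter.Eventually.of_forall fun n h => absurd h hi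
    · by_cases hi : ‖z i‖ < 1
      · have h2 : ‖z i‖ ^ n₀ < 1 := pow_lt_one₀ (norm_nonneg _) hi hn₀.ne'
        have h3 := (tendsto_pow_atTop_nhds_zero_of_lt_one (pow_nonneg (norm_nonneg _) n₀) h2).eventually
          (gt_mem_nhds hδ₀)
        filter_upwards [h3] with n hn _
        rwa [norm_pow, pow_mul]
      · exact Filter.Eventually.of_forall fun n h => absurd h hi
  obtain ⟨M₀, hM₀⟩ := Filter.eventually_atTop.mp hev
  obtain ⟨n', hn'M, hn'pos, hn'⟩ := exists_pow_near_one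
    (fun i : {i : ι // ‖z i‖ = 1} => z i ^ n₀) (fun i => by rw [norm_pow, i.2, one_pow]) δ₁ hδ₁ M₀
  refine ⟨n', hn'pos, ?_⟩
  have hall : ∀ i, (1 / 2 : ℝ) ≤ ‖P.eval (z i ^ (n₀ * n'))‖ := by
    intro i
    rcases lt_trichotomy ‖z i‖ 1 with hi | hi | hi
    · apply hP0
      rw [sub_zero]
      exact ((hM₀ n' hn'M) i).2 hi
    · apply hP1
      have := hn' ⟨i, hi⟩
      rwa [← pow_mul] at this
    · refine le_trans ?_ (hR _ (((hM₀ n' hn'M) i).1 hi))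
      have : (1 : ℝ) ≤ 2 ^ (c + 1) := one_le_pow₀ (by norm_num)
      linarith
  have hi₀' : (2 : ℝ) ^ (c + 1) ≤ ‖P.eval (z i₀ ^ (n₀ * n'))‖ := hR _ (((hM₀ n' hn'M) i₀).1 hi₀)
  rw [← Finset.mul_prod_erase Finset.univ _ (Finset.mem_univ i₀)]
  have h5 : (1 / 2 : ℝ) ^ (Finset.univ.erase i₀).card ≤
      ∏ i ∈ Finset.univ.erase i₀, ‖P.eval (z i ^ (n₀ * n'))‖ := by
    rw [← Finset.prod_const]
    exact Finset.prod_le_prod (fun _ _ => by norm_num) (fun i _ => hall i)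
  have h6 : (1 / 2 : ℝ) ^ c ≤ (1 / 2 : ℝ) ^ (Finset.univ.erase i₀).card := by
    apply pow_le_pow_of_le_one (by norm_num) (by norm_num)
    rw [hc]
    exact (Finset.card_le_card (Finset.erase_subset _ _)).trans (le_of_eq Finset.card_univ)
  have h7 : (2 : ℝ) ^ (c + 1) * (1 / 2 : ℝ) ^ c = 2 := by
    rw [pow_succ, mul_assoc, mul_comm (2 : ℝ), ← mul_assoc, ← mul_pow]
    norm_num
  calc (1 : ℝ) < 2 := by norm_num
    _ = (2 : ℝ) ^ (c + 1) * (1 / 2 : ℝ) ^ c := h7.symm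
    _ ≤ ‖P.eval (z i₀ ^ (n₀ * n'))‖ * ∏ i ∈ Finset.univ.erase i₀, ‖P.eval (z i ^ (n₀ * n'))‖ := by
        apply mul_le_mul hi₀' (h6.trans h5) (by positivity) (norm_nonneg _)

end Fermat.Agent.S48.R48
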