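import Fermat.Agent.S48.R48.Defs
import Fermat.Agent.S48.R48.RU1

/-!
# S48 / R48 / RU : a unit which is not a root of unity has large order modulo suitable primes
(task S48/R48-RU)

Let `K = ℚ(r)` (`IntermediateField.adjoin ℚ {(r : ℂ)}`, a number field), `r_K ∈ 𝓞 K` a unit
(`r⁻¹ ∈ ℤ̄ ∩ K`).
1. `B = ∏_{ℓ ∈ S₀} ℓ ≥ 1`.  `𝓞 K ⧸ (B)` is finite, so `r_K ^ n₀ ≡ 1 mod B 𝓞 K` for `n₀ = ` the order of its unit
   group; hence `r ^ n₀ - 1 ∈ B ℤ̄`, and for all `n'`: `r ^ (n₀ n') - 1 ∈ B ℤ̄`; by `Polynomial.sub_dvd_eval_sub`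
   `y - 1 ∈ B ℤ̄`, where `y = Φ_Q(r ^ (n₀ n'))` and `Φ_Q(1) = 1`.
2. Kronecker (`NumberField.Embeddings.pow_eq_one_of_norm_le_one`): some embedding `φ : K →+* ℂ` has
   `‖φ r_K‖ > 1`.  `exists_prod_gt_one` with `ι = (K →+* ℂ)`, `z φ = φ r_K`, `P = cyclotomic Q ℂ`
   (`Φ_Q(0) = 1` : `Polynomial.cyclotomic_coeff_zero`, `Q > 1` because `Φ_1(1) = 0 ≠ 1`) gives `n'` with
   `∏_φ ‖φ (y_K)‖ > 1`, i.e. `|N_{K/ℚ} y_K| > 1` (`Algebra.norm_eq_prod_embeddings`).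
3. So `y` is not a unit of `ℤ̄` (otherwise `y_K` is a unit of `𝓞 K`, `NumberField.isUnit_iff_norm`).  Take a
   maximal ideal `I ∋ y` (`exists_max_ideal_of_mem_nonunits`).  `I ∩ ℤ` is maximal
   (`Ideal.isMaximal_comap_of_isIntegral_of_isMaximal`), `= (ℓ)`.  If `ℓ ∈ S₀` then `B ∈ I`, `y - 1 ∈ I`, `1 ∈ I`.
-/

set_option autoImplicit false

namespace Fermat.Agent.S48.R48

section RUaux

open Polynomial IntermediateField

theorem RU_pigeon {R : Type*} [CommRing R] [Module.Finite ℤ R] (x : R) (B : ℕ) (hB : 0 < B) :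
    ∃ a b : ℕ, a < b ∧ (B : R) ∣ x ^ b - x ^ a := by
  classical
  let J : Ideal R := Ideal.span {(B : R)}
  have hfin : Finite (R ⧸ J) := by
    have : Module.Finite ℤ (R ⧸ J) := Module.Finite.quotient ℤ J
    refine Module.finite_of_fg_torsion (R ⧸ J) ?_
    intro y
    refine ⟨⟨(B : ℤ), by
      simpa [mem_nonZeroDivisors_iff_ne_zero] using hB.ne'⟩, ?_⟩
    obtain ⟨y, rfl⟩ := Ideal.Quotient.mk_surjective y
    show (B : ℤ) • (Ideal.Quotient.mk J y) = 0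
    rw [← map_zsmul, Ideal.Quotient.eq_zero_iff_mem]
    have : (B : ℤ) • y = (B : R) * y := by simp
    rw [this]
    exact J.mul_mem_right _ (Ideal.subset_span rfl)
  obtain ⟨a, b, hab, h⟩ := Finite.exists_ne_map_eq_of_infinite
    (fun n : ℕ => Ideal.Quotient.mk J (x ^ n))
  wlog hlt : a < b generalizing a b
  · exact this b a hab.symm h.symm (lt_of_le_of_ne (not_lt.mp hlt) hab.symm)
  refine ⟨a, b, hlt, ?_⟩
  have h1 : x ^ b - x ^ a ∈ J := by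
    rw [← Ideal.Quotient.eq_zero_iff_mem, map_sub, sub_eq_zero]
    exact h.symm
  exact Ideal.mem_span_singleton.mp h1

/-- Step 1. -/
theorem RU_exists_pow_sub_one (r : Zbar) (hr : IsUnit r) (B : ℕ) (hB : 0 < B) :
    ∃ n₀ : ℕ, 0 < n₀ ∧ (B : Zbar) ∣ r ^ n₀ - 1 := by
  classical
  have hint : IsIntegral ℤ r :=
    (isIntegral_algebraMap_iff (A := Zbar) (B := ℂ) Subtype.val_injective).mp r.2
  have hfg : Module.Finite ℤ (Algebra.adjoin ℤ {r}) :=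
    Module.Finite.iff_fg.mpr hint.fg_adjoin_singleton
  obtain ⟨a, b, hlt, c, hc⟩ := RU_pigeon (⟨r, Algebra.subset_adjoin rfl⟩ : Algebra.adjoin ℤ {r}) B hB
  refine ⟨b - a, Nat.sub_pos_of_lt hlt, ?_⟩
  have h2 : r ^ b - r ^ a = (B : Zbar) * (c : Zbar) := by
    have := congrArg (fun z : Algebra.adjoin ℤ {r} => (z : Zbar)) hc
    simpa using this
  obtain ⟨u, rfl⟩ := hr
  refine ⟨((u⁻¹ : Zbarˣ) : Zbar) ^ a * c, ?_⟩
  have h3 : (u : Zbar) ^ b = (u : Zbar) ^ (b - a) * (u : Zbar) ^ a := by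
    rw [← pow_add, Nat.sub_add_cancel hlt.le]
  have h4 : ((u⁻¹ : Zbarˣ) : Zbar) ^ a * (u : Zbar) ^ a = 1 := by
    rw [← mul_pow]; simp
  calc (u : Zbar) ^ (b - a) - 1
      = ((u⁻¹ : Zbarˣ) : Zbar) ^ a * ((u : Zbar) ^ b - (u : Zbar) ^ a) := by
        rw [h3]; linear_combination (1 - (u : Zbar) ^ (b - a)) * h4
    _ = (B : Zbar) * (((u⁻¹ : Zbarˣ) : Zbar) ^ a * c) := by rw [h2]; ring

/-- an element of a number field inside `ℂ`, integral with integral inverse, has norm `±1`. -/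
theorem RU_norm_unit {K : Type*} [Field K] [NumberField K] (y : K) (hy : IsIntegral ℤ y)
    (hy' : IsIntegral ℤ y⁻¹) (hy0 : y ≠ 0) : |Algebra.norm ℚ y| = 1 := by
  have h1 : IsIntegral ℤ (Algebra.norm ℚ y) := Algebra.isIntegral_norm ℚ hy
  have h2 : IsIntegral ℤ (Algebra.norm ℚ y⁻¹) := Algebra.isIntegral_norm ℚ hy'
  obtain ⟨a, ha⟩ := IsIntegrallyClosed.isIntegral_iff.mp h1
  obtain ⟨b, hb⟩ := IsIntegrallyClosed.isIntegral_iff.mp h2
  have h3 : Algebra.norm ℚ y * Algebra.norm ℚ y⁻¹ = 1 := by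
    rw [← map_mul, mul_inv_cancel₀ hy0, map_one]
  rw [← ha, ← hb] at h3
  have h4 : a * b = 1 := by
    have : ((a * b : ℤ) : ℚ) = ((1 : ℤ) : ℚ) := by push_cast; simpa using h3
    exact_mod_cast this
  rw [← ha]
  rcases Int.eq_one_or_neg_one_of_mul_eq_one h4 with h | h <;> simp [h]

theorem RU_exists_nonunit (r : Zbar) (hr0 : r ≠ 0) (hnr : ∀ n : ℕ, 0 < n → r ^ n ≠ 1)
    (Q : ℕ) (hQ1 : 1 < Q) (hQ : (cyclotomic Q ℤ).eval 1 = 1) (n₀ : ℕ) (hn₀ : 0 < n₀) :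
    ∃ n' : ℕ, 0 < n' ∧ ¬ IsUnit ((cyclotomic Q Zbar).eval (r ^ (n₀ * n'))) := by
  classical
  have hintC : IsIntegral ℤ (r : ℂ) := r.2
  have hintQ : IsIntegral ℚ (r : ℂ) := hintC.tower_top
  let K : IntermediateField ℚ ℂ := ℚ⟮(r : ℂ)⟯
  have hfd : FiniteDimensional ℚ K := adjoin.finiteDimensional hintQ
  have hnf : NumberField K := { to_charZero := inferInstance, to_finiteDimensional := hfd }
  let rK : K := AdjoinSimple.gen ℚ (r : ℂ)
  have hrK : (rK : ℂ) = r := AdjoinSimple.coe_gen ℚ (r : ℂ)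
  have hrK_int : IsIntegral ℤ rK :=
    (isIntegral_algebraMap_iff (A := K) (B := ℂ) Subtype.val_injective).mp (by
      show IsIntegral ℤ (rK : ℂ); rw [hrK]; exact hintC)
  have hrK0 : rK ≠ 0 := by
    intro h
    apply hr0
    apply Subtype.val_injective
    show (r : ℂ) = 0
    rw [← hrK, h]; rfl
  -- Kronecker
  have hbig : ∃ φ : K →ₐ[ℚ] ℂ, 1 < ‖φ rK‖ := by
    by_contra hcon
    simp only [not_exists, not_lt] at hcon
    obtain ⟨n, hn, h⟩ := NumberField.Embeddings.pow_eq_one_of_norm_le_one K ℂ hrK0 hrK_int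
      (fun φ => hcon φ.toRatAlgHom)
    apply hnr n hn
    apply Subtype.val_injective
    show ((r ^ n : Zbar) : ℂ) = 1
    have := congrArg (fun z : K => (z : ℂ)) h
    simpa [hrK] using this
  have hP1 : (cyclotomic Q ℂ).eval 1 = 1 := by
    have := congrArg (Int.cast : ℤ → ℂ) hQ
    rw [← map_cyclotomic_int Q ℂ, eval_map, eval₂_at_one]
    simpa using this
  have hP0 : (cyclotomic Q ℂ).eval 0 = 1 := by
    rw [← coeff_zero_eq_eval_zero, cyclotomic_coeff_zero ℂ hQ1]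
  obtain ⟨n', hn', hprod⟩ := exists_prod_gt_one (fun φ : K →ₐ[ℚ] ℂ => φ rK) hbig
    (cyclotomic Q ℂ) (cyclotomic.monic Q ℂ)
    (by rw [natDegree_cyclotomic]; exact Nat.totient_pos.mpr (by omega)) hP0 hP1 n₀ hn₀
  refine ⟨n', hn', fun hu => ?_⟩
  set n := n₀ * n' with hn
  let yK : K := (cyclotomic Q K).eval (rK ^ n)
  have hφ : ∀ φ : K →ₐ[ℚ] ℂ, φ yK = (cyclotomic Q ℂ).eval (φ rK ^ n) := by
    intro φ
    have := eval_map_apply (p := cyclotomic Q K) (φ : K →+* ℂ) (rK ^ n)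
    rw [map_cyclotomic] at this
    simpa using this.symm
  have hyC : (yK : ℂ) = (((cyclotomic Q Zbar).eval (r ^ n) : Zbar) : ℂ) := by
    have h1 := eval_map_apply (p := cyclotomic Q K) (algebraMap K ℂ) (rK ^ n)
    have h2 := eval_map_apply (p := cyclotomic Q Zbar) (algebraMap Zbar ℂ) (r ^ n)
    rw [map_cyclotomic] at h1 h2
    have h3 : algebraMap K ℂ (rK ^ n) = algebraMap Zbar ℂ (r ^ n) := by
      rw [map_pow, map_pow]
      congr 1
    rw [h3] at h1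
    exact h1.symm.trans h2
  obtain ⟨u, hu⟩ := hu
  have hy_int : IsIntegral ℤ yK :=
    (isIntegral_algebraMap_iff (A := K) (B := ℂ) Subtype.val_injective).mp (by
      show IsIntegral ℤ (yK : ℂ); rw [hyC]; exact Subtype.property _)
  have hmul : (yK : ℂ) * (((u⁻¹ : Zbarˣ) : Zbar) : ℂ) = 1 := by
    rw [hyC, ← hu]
    have h6 : ((u : Zbar) * ((u⁻¹ : Zbarˣ) : Zbar) : Zbar) = 1 := u.mul_inv
    have h7 : (((u : Zbar) * ((u⁻¹ : Zbarˣ) : Zbar) : Zbar) : ℂ) = ((1 : Zbar) : ℂ) := by rw [h6]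
    exact h7
  have hy0 : yK ≠ 0 := by
    intro h
    rw [h] at hmul
    simp at hmul
  have hinv : ((yK⁻¹ : K) : ℂ) = (((u⁻¹ : Zbarˣ) : Zbar) : ℂ) := by
    have hne : (yK : ℂ) ≠ 0 := fun h => by rw [h] at hmul; simp at hmul
    have : ((yK⁻¹ : K) : ℂ) = (yK : ℂ)⁻¹ := by simp
    rw [this]
    field_simp
    linear_combination -hmul
  have hy'_int : IsIntegral ℤ yK⁻¹ :=
    (isIntegral_algebraMap_iff (A := K) (B := ℂ) Subtype.val_injective).mp (by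
      show IsIntegral ℤ ((yK⁻¹ : K) : ℂ); rw [hinv]; exact Subtype.property _)
  have hnorm := RU_norm_unit yK hy_int hy'_int hy0
  have hemb := Algebra.norm_eq_prod_embeddings ℚ ℂ yK
  have h5 : ‖(algebraMap ℚ ℂ (Algebra.norm ℚ yK))‖ = 1 := by
    have : ‖(algebraMap ℚ ℂ (Algebra.norm ℚ yK))‖ = ((|Algebra.norm ℚ yK| : ℚ) : ℝ) := by
      simp
    rw [this, hnorm]; simp
  rw [hemb, norm_prod] at h5
  simp only [hφ] at h5
  rw [h5] at hprod
  exact lt_irrefl _ hprod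

/-- a maximal ideal of `ℤ̄` contains a rational prime. -/
theorem RU_exists_prime_mem (I : Ideal Zbar) (hI : I.IsMaximal) :
    ∃ ℓ : ℕ, ℓ.Prime ∧ (ℓ : Zbar) ∈ I := by
  have hmax : (I.comap (algebraMap ℤ Zbar)).IsMaximal :=
    Ideal.isMaximal_comap_of_isIntegral_of_isMaximal I
  have hne : I.comap (algebraMap ℤ Zbar) ≠ ⊥ :=
    Ring.ne_bot_of_isMaximal_of_not_isField hmax Int.not_isField
  have hprin := IsPrincipalIdealRing.principal (I.comap (algebraMap ℤ Zbar))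
  set g := Submodule.IsPrincipal.generator (I.comap (algebraMap ℤ Zbar)) with hg
  have hprime : Prime g := Submodule.IsPrincipal.prime_generator_of_isPrime _ hne
  refine ⟨g.natAbs, Int.prime_iff_natAbs_prime.mp hprime, ?_⟩
  have hmem : g ∈ I.comap (algebraMap ℤ Zbar) := Submodule.IsPrincipal.generator_mem _
  have hmem' : ((g.natAbs : ℤ)) ∈ I.comap (algebraMap ℤ Zbar) := by
    rcases Int.natAbs_eq g with h | h
    · rw [← h]; exact hmem
    · have : ((g.natAbs : ℤ)) = -g := by omega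
      rw [this]; exact neg_mem hmem
  have := Ideal.mem_comap.mp hmem'
  simpa using this

end RUaux

open Polynomial in
/-- **(RU)** -/
theorem exists_prime_cyclotomic (r : Zbar) (hr : IsUnit r) (hnr : ∀ n : ℕ, 0 < n → r ^ n ≠ 1)
    (Q : ℕ) (hQ0 : 0 < Q) (hQ : (Polynomial.cyclotomic Q ℤ).eval 1 = 1) (S₀ : Finset ℕ) :
    ∃ (ℓ n : ℕ) (I : Ideal Zbar), ℓ.Prime ∧ ℓ ∉ S₀ ∧ 0 < n ∧ I ≠ ⊤ ∧ (ℓ : Zbar) ∈ I ∧
      (Polynomial.cyclotomic Q Zbar).eval (r ^ n) ∈ I := by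
  classical
  have hQ1 : 1 < Q := by
    rcases Nat.lt_or_ge 1 Q with h | h
    · exact h
    · have : Q = 1 := by omega
      subst this
      simp at hQ
  set B : ℕ := ∏ s ∈ S₀.filter Nat.Prime, s with hB
  have hB0 : 0 < B := Finset.prod_pos fun s hs => (Finset.mem_filter.mp hs).2.pos
  obtain ⟨n₀, hn₀, hdvd⟩ := RU_exists_pow_sub_one r hr B hB0
  obtain ⟨n', hn', hnu⟩ := RU_exists_nonunit r hr.ne_zero hnr Q hQ1 hQ n₀ hn₀
  obtain ⟨I, hI, hyI⟩ := exists_max_ideal_of_mem_nonunits hnu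
  obtain ⟨ℓ, hℓ, hℓI⟩ := RU_exists_prime_mem I hI
  refine ⟨ℓ, n₀ * n', I, hℓ, fun hℓS => ?_, Nat.mul_pos hn₀ hn', hI.ne_top, hℓI, hyI⟩
  apply hI.ne_top
  rw [Ideal.eq_top_iff_one]
  have h1 : (B : Zbar) ∈ I := by
    obtain ⟨c, hc⟩ : ℓ ∣ B := Finset.dvd_prod_of_mem _ (Finset.mem_filter.mpr ⟨hℓS, hℓ⟩)
    rw [hc]; push_cast
    exact I.mul_mem_right _ hℓI
  have h2 : (B : Zbar) ∣ r ^ (n₀ * n') - 1 := by
    refine hdvd.trans ?_
    rw [pow_mul]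
    simpa using sub_dvd_pow_sub_pow (r ^ n₀) 1 n'
  have h3 : r ^ (n₀ * n') - 1 ∣ (cyclotomic Q Zbar).eval (r ^ (n₀ * n')) - (cyclotomic Q Zbar).eval 1 :=
    sub_dvd_eval_sub _ _ _
  have h4 : (cyclotomic Q Zbar).eval 1 = 1 := by
    have := congrArg (Int.cast : ℤ → Zbar) hQ
    rw [← map_cyclotomic_int Q Zbar, eval_map, eval₂_at_one]
    simpa using this
  rw [h4] at h3
  have h5 : (cyclotomic Q Zbar).eval (r ^ (n₀ * n')) - 1 ∈ I :=
    Ideal.mem_of_dvd I (h2.trans h3) h1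
  have := I.sub_mem hyI h5
  simpa using this

/-- consequence in the residue field. -/
theorem dvd_orderOf_of_cyclotomic {k : Type} [Field k] (ℓ : ℕ) [CharP k ℓ] (φ : Zbar →+* k)
    (Q : ℕ) (hQ0 : 0 < Q) (hℓQ : ¬ ℓ ∣ Q) (r : Zbar) (n : ℕ)
    (h : φ ((Polynomial.cyclotomic Q Zbar).eval (r ^ n)) = 0) : Q ∣ orderOf (φ r) := by
  have : NeZero (Q : k) := ⟨fun h0 => hℓQ ((CharP.cast_eq_zero_iff k ℓ Q).mp h0)⟩
  have h1 : (Polynomial.cyclotomic Q k).IsRoot (φ r ^ n) := by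
    rw [Polynomial.IsRoot.def, ← Polynomial.map_cyclotomic Q φ, ← map_pow, Polynomial.eval_map,
      Polynomial.eval₂_hom, h]
  have h2 : IsPrimitiveRoot (φ r ^ n) Q := Polynomial.isRoot_cyclotomic_iff.mp h1
  rw [h2.eq_orderOf]
  exact orderOf_pow_dvd n

end Fermat.Agent.S48.R48
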