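import Fermat.Agent.S48.R48.FDfun
import Fermat.Agent.S48.R48.GT
import Fermat.Agent.S48.R48.RU
import Fermat.Agent.S48.R48.Primorial
import Fermat.Agent.S48.R48.Kill

/-!
# S48 / R48 / StepD   (task S48/R48-StepD)

A fixed pair `(α, ε₀)` whose root ratio is not a root of unity is taken by `(a_p, e_p)` on a set of primes of
density `0`.

Proof.  If no prime `p ∤ N` has `(a p, e p) = (α, ε₀)` the set is empty (`UpperDens.mono` from `upperDens_finset ∅`
and `mono_const`).  Otherwise `α` is integral, `ε₀` is a root of unity, `x, y` are integral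
(roots of `X² - α X + ε₀`) and units of `ℤ̄` (`x y = ε₀`), so `r = x / y = x * y^{-1} ∈ ℤ̄ˣ`, and `r ^ n ≠ 1` for `n > 0`.
`Q` from `exists_primorial η`.  `ℓ₀` from `h.gal`.  `S₀ = range (ℓ₀ + 1) ∪ Q.primeFactors ∪ N.primeFactors`.
`exists_prime_cyclotomic r … Q … S₀` gives `ℓ, n, I`.  `h.gal` with `X = {Φ_Q(r^n)}` gives `k, φ, ρ`.
`d := orderOf (φ r)`; `Q ∣ d` (`dvd_orderOf_of_cyclotomic`).  `G = ρ.range` (finite: `finite_range`),
`ρ' = ρ.rangeRestrict`, `S = insert ℓ N.primeFactors`, `D = {g : G | RatioOrd g d}`.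
For a prime `p ∉ S` with `(a p, e p) = (α, ε₀)` and any Frobenius `σ` at `p` (`exists_frob`):
`tr ρ σ = φ x + φ y`, `det ρ σ = φ x * φ y`, `φ y ≠ 0`, `φ x / φ y = φ r`: `RatioOrd (ρ σ) d`, so `FrobIn ρ' D p`; also `d > 0`
by `RatioOrd.pos` (so `d ≥ Q ≥ 2`); if there is no such prime, the set is contained in `{ℓ}`.
`frobDens_set` + `card_ratioOrd_le` + `exists_primorial`: upper density `≤ |D|/|G| ≤ φ(d)/(d-1) ≤ η`; add the prime `ℓ`
(`UpperDens.or`, `upperDens_finset {ℓ}`).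
-/

set_option autoImplicit false

namespace Fermat.Agent.S48.R48

theorem stepD {N : ℕ} {a e : ℕ → ℂ} (h : Data N a e) (α ε₀ x y : ℂ) (hs : x + y = α)
    (hp : x * y = ε₀) (hnr : ∀ n : ℕ, 0 < n → x ^ n ≠ y ^ n) (η : ℝ) (hη : 0 < η) :
    UpperDens (fun p => ¬ p ∣ N ∧ a p = α ∧ e p = ε₀) (fun _ => 1) η := by
  classical
  by_cases hex : ∃ p : ℕ, p.Prime ∧ ¬ p ∣ N ∧ a p = α ∧ e p = ε₀
  swap
  · refine UpperDens.mono (UpperDens.mono_const (upperDens_finset ∅) hη.le) ?_ ?_ ?_ ?_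
    · intro p hpp hP
      exact absurd ⟨p, hpp, hP⟩ hex
    · intro p _ _; exact zero_le_one
    · intro p _ _; exact zero_le_one
    · intro p _ _; exact le_rfl
  obtain ⟨p₀, hp₀, hp₀N, hap₀, hep₀⟩ := hex
  have hαint : IsIntegral ℤ α := hap₀ ▸ h.int p₀ hp₀ hp₀N
  obtain ⟨n₁, hn₁, hpow⟩ := h.e_pow
  have hε1 : ε₀ ^ n₁ = 1 := hep₀ ▸ hpow p₀ hp₀ hp₀N
  have hεint : IsIntegral ℤ ε₀ := IsIntegral.of_pow hn₁ (hε1 ▸ isIntegral_one)
  -- the roots are algebraic integers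
  obtain ⟨X, Y, hX, hY⟩ : ∃ X Y : Zbar, (X : ℂ) = x ∧ (Y : ℂ) = y := by
    obtain ⟨x', y', h1, h2⟩ := exists_roots α ε₀ hαint hεint
    rcases roots_eq_or (hs.trans h1.symm) (hp.trans h2.symm) with ⟨hx, hy⟩ | ⟨hx, hy⟩
    · exact ⟨x', y', hx.symm, hy.symm⟩
    · exact ⟨y', x', hx.symm, hy.symm⟩
  have hXY : (X * Y) ^ n₁ = 1 := by
    apply Subtype.ext
    push_cast
    rw [hX, hY, hp, hε1]
  have hXYu : IsUnit (X * Y) := IsUnit.of_pow_eq_one hXY hn₁.ne'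
  have hXu : IsUnit X := isUnit_of_mul_isUnit_left hXYu
  have hYu : IsUnit Y := isUnit_of_mul_isUnit_right hXYu
  obtain ⟨uX, rfl⟩ := hXu
  obtain ⟨uY, rfl⟩ := hYu
  obtain ⟨r, hr⟩ : ∃ r : Zbarˣ, r = uX * uY⁻¹ := ⟨_, rfl⟩
  have hrY : (r : Zbar) * uY = uX := by
    rw [hr, ← Units.val_mul, inv_mul_cancel_right]
  have hrn : ∀ n : ℕ, 0 < n → (r : Zbar) ^ n ≠ 1 := by
    intro n hn hr1
    apply hnr n hn
    have h1 : (uX : Zbar) ^ n = (uY : Zbar) ^ n := by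
      rw [← hrY, mul_pow, hr1, one_mul]
    have h2 := congrArg (fun z : Zbar => (z : ℂ)) h1
    simpa [hX, hY] using h2
  -- the auxiliary modulus
  obtain ⟨Q, hQ2, hQ1, hQd⟩ := exists_primorial η hη
  have hQ0 : 0 < Q := by omega
  obtain ⟨ℓ₀, hgal⟩ := h.gal
  obtain ⟨ℓ, n, I, hℓ, hℓS, hn, hI, hℓI, hcyc⟩ :=
    exists_prime_cyclotomic (r : Zbar) r.isUnit hrn Q hQ0 hQ1
      (Finset.range (ℓ₀ + 1) ∪ Q.primeFactors ∪ N.primeFactors)
  simp only [Finset.mem_union, Finset.mem_range, not_or] at hℓS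
  obtain ⟨⟨hℓ1, hℓ2⟩, hℓ3⟩ := hℓS
  have hℓ₀ : ℓ₀ < ℓ := by omega
  have hℓQ : ¬ ℓ ∣ Q := fun hd => hℓ2 (Nat.mem_primeFactors.2 ⟨hℓ, hd, hQ0.ne'⟩)
  obtain ⟨k, _, _, _, φ, ρ, -, hkill, hmod⟩ :=
    hgal ℓ hℓ hℓ₀ I hI hℓI {(Polynomial.cyclotomic Q Zbar).eval ((r : Zbar) ^ n)}
      (by intro z hz; rw [Finset.mem_singleton] at hz; rw [hz]; exact hcyc)
  have hQdvd : Q ∣ orderOf (φ (r : Zbar)) :=
    dvd_orderOf_of_cyclotomic ℓ φ Q hQ0 hℓQ (r : Zbar) n (hkill _ (Finset.mem_singleton_self _))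
  obtain ⟨d, hd⟩ : ∃ d : ℕ, d = orderOf (φ (r : Zbar)) := ⟨_, rfl⟩
  rw [← hd] at hQdvd
  have : Finite ρ.range := finite_range ρ hmod.level
  have hnd : ∀ p : ℕ, p.Prime → p ∉ insert ℓ N.primeFactors → ¬ p ∣ N * ℓ := by
    intro p hpp hpS hdvd
    rw [Finset.mem_insert, not_or] at hpS
    rcases (Nat.Prime.dvd_mul hpp).1 hdvd with h1 | h1
    · exact hpS.2 (Nat.mem_primeFactors.2 ⟨hpp, h1, h.N_ne⟩)
    · exact hpS.1 ((Nat.prime_dvd_prime_iff_eq hpp hℓ).1 h1)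
  have hunr : UnramOutside ρ (insert ℓ N.primeFactors) := by
    intro p hpp hpS A hA σ hσ
    exact hmod.unram p hpp (hnd p hpp hpS) A hA σ hσ
  have hdens := (frobDens_set ρ.rangeRestrict ρ.rangeRestrict_surjective
    (level_rangeRestrict ρ hmod.level) (insert ℓ N.primeFactors) hunr.rangeRestrict
    {g : ρ.range | RatioOrd ((g : GL (Fin 2) k) : Matrix (Fin 2) (Fin 2) k) d}
    (isDivStable_ratioOrd ρ.range d)).1
  -- the density is small
  have hsmall : (Nat.card {g : ρ.range | RatioOrd ((g : GL (Fin 2) k) : Matrix (Fin 2) (Fin 2) k) d} : ℝ)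
      / Nat.card ρ.range ≤ η := by
    have hG : 0 < Nat.card ρ.range := Nat.card_pos
    have hGR : (0 : ℝ) < Nat.card ρ.range := by exact_mod_cast hG
    rw [div_le_iff₀ hGR]
    by_cases hne : Nonempty {g : ρ.range // RatioOrd ((g : GL (Fin 2) k) : Matrix (Fin 2) (Fin 2) k) d}
    · obtain ⟨⟨g, hg⟩⟩ := hne
      have hgpow : (g : GL (Fin 2) k) ^ Nat.card ρ.range = 1 := by
        have := pow_card_eq_one' (G := ρ.range) (x := g)
        exact_mod_cast congrArg (fun z : ρ.range => (z : GL (Fin 2) k)) this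
      have hdpos : 0 < d := RatioOrd.pos hG hgpow hg
      have hd2 : 2 ≤ d := le_trans hQ2 (Nat.le_of_dvd hdpos hQdvd)
      have h1 := card_ratioOrd_le ρ.range d hd2
      have h2 := hQd d hd2 hQdvd
      have hd1 : (0 : ℝ) < (d : ℝ) - 1 := by
        have : (2 : ℝ) ≤ d := by exact_mod_cast hd2
        linarith
      have h3 : ((d : ℝ) - 1) *
          (Nat.card {g : ρ.range // RatioOrd ((g : GL (Fin 2) k) : Matrix (Fin 2) (Fin 2) k) d} : ℝ)
          ≤ (Nat.totient d : ℝ) * Nat.card ρ.range := by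
        have h4 : (((d - 1 : ℕ) *
          Nat.card {g : ρ.range // RatioOrd ((g : GL (Fin 2) k) : Matrix (Fin 2) (Fin 2) k) d} : ℕ) : ℝ)
          ≤ ((Nat.totient d * Nat.card ρ.range : ℕ) : ℝ) := by exact_mod_cast h1
        rw [Nat.cast_mul, Nat.cast_mul, Nat.cast_sub (by omega), Nat.cast_one] at h4
        exact h4
      have h5 : ((d : ℝ) - 1) *
          (Nat.card {g : ρ.range // RatioOrd ((g : GL (Fin 2) k) : Matrix (Fin 2) (Fin 2) k) d} : ℝ)
          ≤ ((d : ℝ) - 1) * (η * Nat.card ρ.range) := by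
        calc _ ≤ (Nat.totient d : ℝ) * Nat.card ρ.range := h3
          _ ≤ (η * ((d : ℝ) - 1)) * Nat.card ρ.range :=
              mul_le_mul_of_nonneg_right h2 hGR.le
          _ = _ := by ring
      exact le_of_mul_le_mul_left h5 hd1
    · rw [not_nonempty_iff] at hne
      have h0 : Nat.card {g : ρ.range // RatioOrd ((g : GL (Fin 2) k) : Matrix (Fin 2) (Fin 2) k) d} = 0 :=
        Nat.card_of_isEmpty
      have h0' : (Nat.card {g : ρ.range | RatioOrd ((g : GL (Fin 2) k) : Matrix (Fin 2) (Fin 2) k) d} : ℝ)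
          = 0 := by exact_mod_cast h0
      rw [h0']
      positivity
  have hfin := UpperDens.or (UpperDens.mono_const hdens hsmall) (upperDens_finset {ℓ})
  rw [add_zero] at hfin
  refine UpperDens.mono hfin ?_ ?_ ?_ ?_
  · rintro p hpp ⟨hpN, hap, hep⟩
    by_cases hpℓ : p = ℓ
    · right
      exact Finset.mem_singleton.2 hpℓ
    · left
      have hpS : p ∉ insert ℓ N.primeFactors := by
        rw [Finset.mem_insert, not_or]
        exact ⟨hpℓ, fun hm => hpN (Nat.dvd_of_mem_primeFactors hm)⟩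
      refine ⟨hpS, ?_⟩
      obtain ⟨A, σ, hA, hσ⟩ := exists_frob p hpp
      refine ⟨A, σ, hA, hσ, ?_⟩
      obtain ⟨htr, hdet⟩ := hmod.frob p hpp (hnd p hpp hpS) A hA σ hσ ((uX : Zbar) + uY)
        ((uX : Zbar) * uY) (by push_cast; rw [hX, hY, hs, hap]) (by push_cast; rw [hX, hY, hp, hep])
      have hφY : φ (uY : Zbar) ≠ 0 := (uY.isUnit.map φ).ne_zero
      refine ⟨φ (uX : Zbar), φ (uY : Zbar), hφY, ?_, ?_, ?_⟩
      · rw [← map_add]; exact htr
      · rw [← map_mul]; exact hdet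
      · rw [hd, ← hrY, map_mul, mul_div_cancel_right₀ _ hφY]
  · intro p _ _; exact zero_le_one
  · intro p _ _; exact zero_le_one
  · intro p _ _; exact le_rfl

end Fermat.Agent.S48.R48
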