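import Fermat.Agent.S48.R48.StepD

/-!
# S48 / R48 / StepE   (task S48/R48-StepE)

`n` from `h.e_pow`, `X` from `h.fin (1/16)`, `T = X ×ˢ μ_n` (`μ_n = Polynomial.nthRootsFinset n (1 : ℂ)`).  For each pair
`t = (α, ε₀) ∈ T` choose roots `x_t, y_t ∈ ℂ` of `X² - α X + ε₀` (`IsAlgClosed`).  `t` is *good* if
`∃ m > 0, x_t ^ m = y_t ^ m` (choose `m_t`), *bad* otherwise.  `m₀ = ∏_{t good} m_t`.  For bad `t`: `stepD` with
`η = 1 / (16 (|T| + 1))`.  A prime `p ∤ N` with `¬ RootsPow (a p) (e p) m₀` has `a p ∉ X`, or `(a p, e p)` is a bad pair of `T`.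
`UpperDens.or`, `upperDens_exists`, `UpperDens.mono`, `mono_const`: `1/16 + |T| / (16 (|T|+1)) ≤ 1/8`.
-/

set_option autoImplicit false

namespace Fermat.Agent.S48.R48

namespace StepE

/-- every monic quadratic over `ℂ` splits. -/
theorem exists_roots_complex (α ε₀ : ℂ) : ∃ x y : ℂ, x + y = α ∧ x * y = ε₀ := by
  obtain ⟨s, hs⟩ := IsAlgClosed.exists_pow_nat_eq (α ^ 2 - 4 * ε₀) (n := 2) (by norm_num)
  refine ⟨(α + s) / 2, (α - s) / 2, by ring, ?_⟩
  have : (α + s) / 2 * ((α - s) / 2) = (α ^ 2 - s ^ 2) / 4 := by ring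
  rw [this, hs]
  ring

end StepE

theorem stepE {N : ℕ} {a e : ℕ → ℂ} (h : Data N a e) :
    ∃ m₀ : ℕ, 0 < m₀ ∧
      UpperDens (fun p => ¬ p ∣ N ∧ ¬ RootsPow (a p) (e p) m₀) (fun _ => 1) (1 / 8) := by
  classical
  obtain ⟨n, hn0, hn⟩ := h.e_pow
  obtain ⟨X, hX⟩ := h.fin (1 / 16) (by norm_num)
  set T : Finset (ℂ × ℂ) := X ×ˢ (Polynomial.nthRootsFinset n (1 : ℂ)) with hT
  choose xf yf hsum hprod using fun t : ℂ × ℂ => StepE.exists_roots_complex t.1 t.2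
  let Good : ℂ × ℂ → Prop := fun t => ∃ m : ℕ, 0 < m ∧ xf t ^ m = yf t ^ m
  let mf : ℂ × ℂ → ℕ := fun t => if hg : Good t then hg.choose else 1
  have hmf_pos : ∀ t, 0 < mf t := by
    intro t
    by_cases hg : Good t
    · simp only [mf, dif_pos hg]
      exact hg.choose_spec.1
    · simp only [mf, dif_neg hg]
      exact Nat.one_pos
  have hmf_good : ∀ t, Good t → xf t ^ mf t = yf t ^ mf t := by
    intro t hg
    simp only [mf, dif_pos hg]
    exact hg.choose_spec.2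
  refine ⟨∏ t ∈ T, mf t, Finset.prod_pos (fun t _ => hmf_pos t), ?_⟩
  set m₀ : ℕ := ∏ t ∈ T, mf t with hm₀
  have hgood_pow : ∀ t ∈ T, Good t → xf t ^ m₀ = yf t ^ m₀ := by
    intro t ht hg
    obtain ⟨c, hc⟩ := Finset.dvd_prod_of_mem mf ht
    rw [hm₀, hc, pow_mul, pow_mul, hmf_good t hg]
  set η : ℝ := 1 / (16 * ((T.card : ℝ) + 1)) with hη
  have hcard : (0 : ℝ) ≤ (T.card : ℝ) := Nat.cast_nonneg _
  have hη0 : 0 < η := by positivity
  set Tb : Finset (ℂ × ℂ) := T.filter (fun t => ¬ Good t) with hTb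
  have hbad : ∀ t ∈ Tb,
      UpperDens (fun p => ¬ p ∣ N ∧ a p = t.1 ∧ e p = t.2) (fun _ => 1) η := by
    intro t ht
    have hng : ¬ Good t := (Finset.mem_filter.mp ht).2
    refine stepD h t.1 t.2 (xf t) (yf t) (hsum t) (hprod t) ?_ η hη0
    intro m hm hxy
    exact hng ⟨m, hm, hxy⟩
  have hU := UpperDens.or hX (upperDens_exists Tb
    (fun t p => ¬ p ∣ N ∧ a p = t.1 ∧ e p = t.2) (fun _ => η) hbad)
  have hconst : 1 / 16 + ∑ _t ∈ Tb, η ≤ 1 / 8 := by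
    rw [Finset.sum_const, nsmul_eq_mul]
    have h1 : (Tb.card : ℝ) ≤ (T.card : ℝ) := by
      exact_mod_cast Finset.card_filter_le _ _
    have h2 : (Tb.card : ℝ) * η ≤ 1 / 16 := by
      calc (Tb.card : ℝ) * η ≤ ((T.card : ℝ) + 1) * η := by
            apply mul_le_mul_of_nonneg_right _ hη0.le
            linarith
        _ = 1 / 16 := by
            rw [hη]
            field_simp
    linarith
  refine UpperDens.mono (UpperDens.mono_const hU hconst) ?_ (fun _ _ _ => zero_le_one) (fun _ _ _ => zero_le_one)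
    (fun _ _ _ => le_rfl)
  rintro p hp ⟨hpN, hnot⟩
  by_cases hapX : a p ∈ X
  · right
    have hmemT : (a p, e p) ∈ T := by
      rw [hT, Finset.mem_product]
      exact ⟨hapX, (Polynomial.mem_nthRootsFinset hn0 _).mpr (hn p hp hpN)⟩
    refine ⟨(a p, e p), ?_, hpN, rfl, rfl⟩
    rw [hTb, Finset.mem_filter]
    refine ⟨hmemT, fun hg => hnot ?_⟩
    exact ⟨xf (a p, e p), yf (a p, e p), hsum _, hprod _, hgood_pow _ hmemT hg⟩
  · left
    exact ⟨hpN, hapX⟩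

end Fermat.Agent.S48.R48
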