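import Fermat.Agent.S48.R48.StepE

/-!
# S48 / R48 / StepF   (tasks S48/R48-StepFmod, S48/R48-StepF)

`stepF_mod`.  `G = r.range` (finite), `r' = r.rangeRestrict`, `S = insert ℓ N.primeFactors`,
`D = {g : G | ¬ RatioPow g m₀}` (`isDivStable_not_ratioPow`).  `frobDens_set`: lower density `|D|/|G|` of
`{p ∉ S, FrobIn r' D p}`.  Such a `p` satisfies `¬ p ∣ N ∧ ¬ RootsPow (a p) (e p) m₀`: if `x + y = a p`, `x y = e p`,
`x^m₀ = y^m₀` then `x, y` are integral (`a p` integral, `e p` a root of unity), `x', y' : Zbar`, and `hr.frob` with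
`x' + y'`, `x' * y'` gives `RatioPow (r σ) m₀` for EVERY Frobenius `σ` at `p`.
`le_of_lowerDens_of_upperDens_of_imp`: `|D|/|G| ≤ 1/8`, so `7 |G| ≤ 8 |G \ D|`; `ratioPow_of_large`.
`IsSS G.subtype` follows from `hr.ss`.

`stepF`.  `m₀` from `stepE`.  Fix a prime `p ∤ N`, roots `x, y : Zbar` (`exists_roots`), `z = x^m₀ - y^m₀`.  If `z ≠ 0`:
`ℓ₁` from `exists_bound_of_ne_zero z`; choose a prime `ℓ > max (ℓ₀, ℓ₁, 6 m₀, p)`; `h.gal` with `I = span {ℓ}`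
(`span_natCast_ne_top`), `X = ∅`; `stepF_mod` at a Frobenius `σ` at `p` (`exists_frob`; `p ∤ N ℓ`):
`RatioPow (r σ) m₀` with roots `x̄, ȳ`; by `roots_eq_or` `{x̄, ȳ} = {φ x, φ y}`, so `φ z = 0`: contradiction.

`roots_of_unity`.  `m₁ = 2 m₀ n`: `x^(2 m₀) = x^m₀ y^m₀ = (e p)^m₀`.
-/

set_option autoImplicit false

namespace Fermat.Agent.S48.R48

theorem stepF_mod {N : ℕ} {a e : ℕ → ℂ} (h : Data N a e) (m₀ : ℕ) (hm₀ : 0 < m₀)
    (hE : UpperDens (fun p => ¬ p ∣ N ∧ ¬ RootsPow (a p) (e p) m₀) (fun _ => 1) (1 / 8))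
    (ℓ : ℕ) (hℓ : ℓ.Prime) (hbig : 6 * m₀ < ℓ) {k : Type} [Field k] [CharP k ℓ] [IsAlgClosed k]
    (φ : Zbar →+* k) (r : GQ →* GL (Fin 2) k) (hr : IsModRep N a e ℓ φ r) :
    (∀ σ : GQ, RatioPow ((r σ : GL (Fin 2) k) : Matrix (Fin 2) (Fin 2) k) m₀) ∧
      ¬ ℓ ∣ Nat.card r.range := by
  classical
  have hfin : Finite r.range := finite_range r hr.level
  have hsurj : Function.Surjective r.rangeRestrict := r.rangeRestrict_surjective
  have hlev : GaloisFactorsThroughFiniteLevel r.rangeRestrict := level_rangeRestrict r hr.level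
  have hS : ∀ p : ℕ, p.Prime → p ∉ insert ℓ N.primeFactors → ¬ p ∣ N ∧ ¬ p ∣ N * ℓ := by
    intro p hp hpS
    have h1 : ¬ p ∣ N := fun h1 =>
      hpS (Finset.mem_insert_of_mem (Nat.mem_primeFactors.mpr ⟨hp, h1, h.N_ne⟩))
    refine ⟨h1, fun hdvd => ?_⟩
    rcases (Nat.Prime.dvd_mul hp).mp hdvd with h2 | h2
    · exact h1 h2
    · exact hpS (Finset.mem_insert.mpr (Or.inl ((Nat.prime_dvd_prime_iff_eq hp hℓ).mp h2)))
  have hunr0 : UnramOutside r (insert ℓ N.primeFactors) := by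
    intro p hp hpS A hA σ hσ
    exact hr.unram p hp (hS p hp hpS).2 A hA σ hσ
  have hunr : UnramOutside r.rangeRestrict (insert ℓ N.primeFactors) := hunr0.rangeRestrict
  have hD : IsDivStable {g : r.range |
      ¬ RatioPow ((g : GL (Fin 2) k) : Matrix (Fin 2) (Fin 2) k) m₀} :=
    isDivStable_not_ratioPow r.range m₀
  have hdens := (frobDens_set r.rangeRestrict hsurj hlev _ hunr _ hD).2
  have himp : ∀ p : ℕ, p.Prime →
      (p ∉ insert ℓ N.primeFactors ∧ FrobIn r.rangeRestrict {g : r.range |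
        ¬ RatioPow ((g : GL (Fin 2) k) : Matrix (Fin 2) (Fin 2) k) m₀} p) →
      (¬ p ∣ N ∧ ¬ RootsPow (a p) (e p) m₀) := by
    rintro p hp ⟨hpS, A, σ, hA, hσ, hmem⟩
    obtain ⟨hpN, hpNl⟩ := hS p hp hpS
    refine ⟨hpN, ?_⟩
    rintro ⟨x, y, hxy, hxy', hpow⟩
    apply hmem
    have hint_a : IsIntegral ℤ (a p) := h.int p hp hpN
    obtain ⟨n, hn, hen⟩ := h.e_pow
    have hint_e : IsIntegral ℤ (e p) :=
      IsIntegral.of_pow hn (by rw [hen p hp hpN]; exact isIntegral_one)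
    obtain ⟨x', y', hs', hp'⟩ := exists_roots (a p) (e p) hint_a hint_e
    have hpow' : x' ^ m₀ = y' ^ m₀ := by
      apply Subtype.ext
      push_cast
      rcases roots_eq_or (hxy.trans hs'.symm) (hxy'.trans hp'.symm) with ⟨h1, h2⟩ | ⟨h1, h2⟩
      · rw [← h1, ← h2, hpow]
      · rw [← h1, ← h2, hpow]
    obtain ⟨ht, hd⟩ := hr.frob p hp hpNl A hA σ hσ (x' + y') (x' * y')
      (by push_cast; exact hs') (by push_cast; exact hp')
    refine ⟨φ x', φ y', ?_, ?_, ?_⟩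
    · rw [← map_add]; exact ht
    · rw [← map_mul]; exact hd
    · rw [← map_pow, ← map_pow, hpow']
  have hle := le_of_lowerDens_of_upperDens_of_imp hdens hE himp
  have hcard : Nat.card {g : r.range // RatioPow ((g : GL (Fin 2) k) : Matrix (Fin 2) (Fin 2) k) m₀} +
      Nat.card {g : r.range // ¬ RatioPow ((g : GL (Fin 2) k) : Matrix (Fin 2) (Fin 2) k) m₀} =
      Nat.card r.range := by
    rw [← Nat.card_sum]
    exact Nat.card_congr (Equiv.sumCompl _)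
  have hpos : 0 < Nat.card r.range := Nat.card_pos
  have hle' : 8 * Nat.card {g : r.range //
      ¬ RatioPow ((g : GL (Fin 2) k) : Matrix (Fin 2) (Fin 2) k) m₀} ≤ Nat.card r.range := by
    have hpos' : (0 : ℝ) < Nat.card r.range := by exact_mod_cast hpos
    rw [div_le_iff₀ hpos'] at hle
    have h2 : (8 : ℝ) * (Nat.card {g : r.range //
      ¬ RatioPow ((g : GL (Fin 2) k) : Matrix (Fin 2) (Fin 2) k) m₀} : ℝ) ≤ Nat.card r.range := by
      have h3 : ((Nat.card ({g : r.range |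
        ¬ RatioPow ((g : GL (Fin 2) k) : Matrix (Fin 2) (Fin 2) k) m₀} : Set r.range) : ℕ) : ℝ) =
        (Nat.card {g : r.range //
      ¬ RatioPow ((g : GL (Fin 2) k) : Matrix (Fin 2) (Fin 2) k) m₀} : ℝ) := rfl
      rw [h3] at hle
      linarith
    exact_mod_cast h2
  have hW : 7 * Nat.card r.range ≤
      8 * Nat.card {g : r.range // RatioPow ((g : GL (Fin 2) k) : Matrix (Fin 2) (Fin 2) k) m₀} := by
    omega
  obtain ⟨hA, hB⟩ := ratioPow_of_large ℓ hℓ r.range m₀ hm₀ hbig hW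
  refine ⟨fun σ => hA (r σ) ⟨σ, rfl⟩, hB ?_⟩
  rcases hr.ss with hss | hss
  · left
    intro W hW
    exact hss W fun σ x hx => hW ⟨r σ, σ, rfl⟩ x hx
  · right
    rintro ⟨_, σ, rfl⟩
    exact hss σ

theorem stepF {N : ℕ} {a e : ℕ → ℂ} (h : Data N a e) (m₀ : ℕ) (hm₀ : 0 < m₀)
    (hE : UpperDens (fun p => ¬ p ∣ N ∧ ¬ RootsPow (a p) (e p) m₀) (fun _ => 1) (1 / 8)) :
    ∀ p : ℕ, p.Prime → ¬ p ∣ N → RootsPow (a p) (e p) m₀ := by
  intro p hp hpN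
  obtain ⟨n, hn, hen⟩ := h.e_pow
  have heint : IsIntegral ℤ (e p) :=
    IsIntegral.of_pow hn (by rw [hen p hp hpN]; exact isIntegral_one)
  obtain ⟨x, y, hxy, hxy'⟩ := exists_roots (a p) (e p) (h.int p hp hpN) heint
  by_cases hz : x ^ m₀ - y ^ m₀ = 0
  · refine ⟨x, y, hxy, hxy', ?_⟩
    have := congrArg (fun t : Zbar => (t : ℂ)) (sub_eq_zero.mp hz)
    simpa using this
  exfalso
  obtain ⟨ℓ₁, hℓ₁⟩ := exists_bound_of_ne_zero _ hz
  obtain ⟨ℓ₀, hℓ₀⟩ := h.gal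
  obtain ⟨ℓ, hℓge, hℓ⟩ := Nat.exists_infinite_primes (ℓ₀ + ℓ₁ + 6 * m₀ + p + 1)
  obtain ⟨k, _, _, _, φ, r, -, -, hr⟩ := hℓ₀ ℓ hℓ (by omega) (Ideal.span {(ℓ : Zbar)})
    (span_natCast_ne_top ℓ hℓ) (Ideal.subset_span rfl) ∅ (by simp)
  have hF := (stepF_mod h m₀ hm₀ hE ℓ hℓ (by omega) φ r hr).1
  obtain ⟨A, σ, hA, hσ⟩ := exists_frob p hp
  have hpNℓ : ¬ p ∣ N * ℓ := by
    intro hd
    rcases (Nat.Prime.dvd_mul hp).mp hd with h1 | h1
    · exact hpN h1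
    · have := (Nat.prime_dvd_prime_iff_eq hp hℓ).mp h1
      omega
  have hfr := hr.frob p hp hpNℓ A hA σ hσ (x + y) (x * y) (by push_cast; exact hxy)
    (by push_cast; exact hxy')
  obtain ⟨x', y', ht, hd, hpow⟩ := hF σ
  have h1 : φ x + φ y = x' + y' := by rw [← map_add, ← hfr.1, ht]
  have h2 : φ x * φ y = x' * y' := by rw [← map_mul, ← hfr.2, hd]
  have hφ : φ (x ^ m₀ - y ^ m₀) = 0 := by
    rw [map_sub, map_pow, map_pow]
    rcases roots_eq_or h1 h2 with ⟨e1, e2⟩ | ⟨e1, e2⟩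
    · rw [e1, e2, hpow, sub_self]
    · rw [e1, e2, hpow, sub_self]
  exact hℓ₁ ℓ hℓ (by omega) k φ hφ

theorem roots_of_unity {N : ℕ} {a e : ℕ → ℂ} (h : Data N a e) (m₀ : ℕ) (hm₀ : 0 < m₀)
    (hF : ∀ p : ℕ, p.Prime → ¬ p ∣ N → RootsPow (a p) (e p) m₀) :
    ∃ m₁ : ℕ, 0 < m₁ ∧ ∀ p : ℕ, p.Prime → ¬ p ∣ N →
      ∃ x y : ℂ, x + y = a p ∧ x * y = e p ∧ x ^ m₁ = 1 ∧ y ^ m₁ = 1 := by
  obtain ⟨n, hn, hen⟩ := h.e_pow
  refine ⟨2 * m₀ * n, by positivity, fun p hp hpN => ?_⟩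
  obtain ⟨x, y, hxy, hxy', hpow⟩ := hF p hp hpN
  refine ⟨x, y, hxy, hxy', ?_, ?_⟩
  · have h1 : x ^ (2 * m₀) = e p ^ m₀ := by
      rw [two_mul, pow_add, ← hxy', mul_pow]
      nth_rewrite 2 [hpow]
      rfl
    rw [pow_mul, h1, ← pow_mul, mul_comm, pow_mul, hen p hp hpN, one_pow]
  · have h1 : y ^ (2 * m₀) = e p ^ m₀ := by
      rw [two_mul, pow_add, ← hxy', mul_pow]
      nth_rewrite 1 [← hpow]
      rfl
    rw [pow_mul, h1, ← pow_mul, mul_comm, pow_mul, hen p hp hpN, one_pow]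

end Fermat.Agent.S48.R48
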