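import Mathlib

/-!
# S48 / R48 / StepHAux : finite group lemmas for `no_characters`   (task S48/R48-StepH)
-/

set_option autoImplicit false

namespace Fermat.Agent.S48.R48

/-- `g ↦ g ^ j` permutes a finite group when `j` is prime to the order. -/
theorem StepH_sum_pow {G : Type} [Group G] [Fintype G] (f : G → ℝ) (j : ℕ)
    (hj : j.Coprime (Fintype.card G)) : ∑ g, f (g ^ j) = ∑ g, f g := by
  have h : (Nat.card G).Coprime j := by
    rw [Nat.card_eq_fintype_card]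
    exact hj.symm
  exact Equiv.sum_comp (powCoprime h) f

/-- The average over the exponents prime to `|G|` is constant on divisions. -/
theorem StepH_div {G : Type} [Group G] [Fintype G] (n : ℕ) [NeZero n] (hn : n = Fintype.card G)
    (f : G → ℝ) (h : G) (i : ℕ) (hi : i.Coprime (orderOf h)) :
    ∑ j : (ZMod n)ˣ, f ((h ^ i) ^ (j : ZMod n).val) = ∑ j : (ZMod n)ˣ, f (h ^ (j : ZMod n).val) := by
  have hd : orderOf h ∣ n := hn ▸ orderOf_dvd_card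
  obtain ⟨i', hi'⟩ := ZMod.unitsMap_surjective hd (ZMod.unitOfCoprime i hi)
  have hpow : ∀ a b : ℕ, ((a : ZMod n) = b) → h ^ a = h ^ b := by
    intro a b hab
    rw [pow_eq_pow_iff_modEq]
    exact ((ZMod.natCast_eq_natCast_iff a b n).mp hab).of_dvd hd
  have h1 : h ^ i = h ^ (i' : ZMod n).val := by
    rw [pow_eq_pow_iff_modEq, ← ZMod.natCast_eq_natCast_iff]
    have h2 := congrArg (fun u : (ZMod (orderOf h))ˣ => (u : ZMod (orderOf h))) hi'
    simp only [ZMod.unitsMap_val, ZMod.coe_unitOfCoprime] at h2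
    rw [← h2, ← ZMod.cast_eq_val]
  rw [← Equiv.sum_comp (Equiv.mulLeft i') (fun j : (ZMod n)ˣ => f (h ^ (j : ZMod n).val))]
  refine Finset.sum_congr rfl fun j _ => ?_
  congr 1
  rw [h1, ← pow_mul]
  apply hpow
  simp

/-- `∑_g ‖g₁ + g₂‖² ≥ 2 |G|` for a finite subgroup `G` of `ℂˣ × ℂˣ`. -/
theorem StepH_sum_ge (G : Subgroup (ℂˣ × ℂˣ)) [Fintype G] :
    2 * (Fintype.card G : ℝ) ≤
      ∑ g : G, ‖(((g : ℂˣ × ℂˣ).1 : ℂˣ) : ℂ) + (((g : ℂˣ × ℂˣ).2 : ℂˣ) : ℂ)‖ ^ 2 := by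
  classical
  have hcard : Fintype.card G ≠ 0 := Fintype.card_ne_zero
  have hn1 : ∀ g : G, ‖(((g : ℂˣ × ℂˣ).1 : ℂˣ) : ℂ)‖ = 1 := by
    intro g
    apply Complex.norm_eq_one_of_pow_eq_one (n := Fintype.card G) _ hcard
    have h := congrArg (fun x : G => (((x : ℂˣ × ℂˣ).1 : ℂˣ) : ℂ)) (pow_card_eq_one (x := g))
    simpa only [Subgroup.coe_pow, Prod.pow_fst, Units.val_pow_eq_pow_val, Subgroup.coe_one,
      Prod.fst_one, Units.val_one] using h
  have hn2 : ∀ g : G, ‖(((g : ℂˣ × ℂˣ).2 : ℂˣ) : ℂ)‖ = 1 := by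
    intro g
    apply Complex.norm_eq_one_of_pow_eq_one (n := Fintype.card G) _ hcard
    have h := congrArg (fun x : G => (((x : ℂˣ × ℂˣ).2 : ℂˣ) : ℂ)) (pow_card_eq_one (x := g))
    simpa only [Subgroup.coe_pow, Prod.pow_snd, Units.val_pow_eq_pow_val, Subgroup.coe_one,
      Prod.snd_one, Units.val_one] using h
  let θ : G →* ℂ :=
    { toFun := fun g => (((g : ℂˣ × ℂˣ).1 : ℂˣ) : ℂ) * (((g : ℂˣ × ℂˣ).2 : ℂˣ) : ℂ)⁻¹
      map_one' := by simp
      map_mul' := by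
        intro x y
        simp only [Subgroup.coe_mul, Prod.fst_mul, Prod.snd_mul, Units.val_mul, mul_inv]
        ring }
  have hf : ∀ g : G, ‖(((g : ℂˣ × ℂˣ).1 : ℂˣ) : ℂ) + (((g : ℂˣ × ℂˣ).2 : ℂˣ) : ℂ)‖ ^ 2
      = 2 + 2 * (θ g).re := by
    intro g
    have h3 : (θ g) = (((g : ℂˣ × ℂˣ).1 : ℂˣ) : ℂ) *
        (starRingEnd ℂ) (((g : ℂˣ × ℂˣ).2 : ℂˣ) : ℂ) := by
      show (((g : ℂˣ × ℂˣ).1 : ℂˣ) : ℂ) * (((g : ℂˣ × ℂˣ).2 : ℂˣ) : ℂ)⁻¹ = _
      rw [Complex.inv_eq_conj (hn2 g)]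
    rw [h3, Complex.sq_norm, Complex.normSq_add, Complex.normSq_eq_norm_sq, Complex.normSq_eq_norm_sq,
      hn1, hn2]
    ring
  have hsum : 0 ≤ (∑ g : G, θ g).re := by
    rw [sum_hom_units]
    split_ifs <;> simp
  calc 2 * (Fintype.card G : ℝ) ≤ 2 * (Fintype.card G : ℝ) + 2 * (∑ g : G, θ g).re := by linarith
    _ = ∑ g : G, (2 + 2 * (θ g).re) := by
        rw [Finset.sum_add_distrib, ← Finset.mul_sum, Complex.re_sum]
        simp [mul_comm]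
    _ = _ := (Finset.sum_congr rfl fun g _ => (hf g).symm)

end Fermat.Agent.S48.R48
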