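import Fermat.Agent.S48.R48.FDfun
import Fermat.Agent.S23.Descent
import Fermat.Agent.S48.R48.StepHAux

/-!
# S48 / R48 / StepH : `a_p` is not a sum of two characters   (task S48/R48-StepH)

`ψ = χ₁ / χ₂ : GQ →* ℂˣ`, `G = ψ.range` (finite by `finite_range`, `level` of a product/quotient via `level_prod`,
`level_comp`), `n = |G|`, every `g ∈ G` satisfies `g ^ n = 1`.
For `j ∈ (ZMod n)ˣ` there is `τ_j : ℂ →+* ℂ` with `τ_j ζ = ζ ^ j.val` for all `ζ` with `ζ ^ n = 1`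
(`exists_sigma`: `S23.exists_ringEquiv_complex` for `R = CyclotomicField n ℚ` (countable) and the two embeddings sending a
primitive root `ζ_n` to `exp(2πi/n)` and to its `j`-th power; or `IsCyclotomicExtension.autEquivPow` + `IsAlgClosed.lift`).
`w p = ∑_j ‖τ_j (a p)‖²`, `F g = ∑_j ‖1 + (g : ℂ) ^ j.val‖²`.
* For `p ∉ T`, `σ` a Frobenius: `a p = χ₂ σ (1 + ψ σ)`, `τ_j (χ₂ σ)` is a root of unity, so of norm `1`:
  `‖τ_j (a p)‖² = ‖1 + (ψ σ)^j‖²`, `w p = F (ψ σ)`.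
* `F` is constant on divisions: `G` is commutative (conjugation trivial); for `i` prime to `orderOf h` there is `i'` prime to `n`
  with `h ^ i = h ^ i'` (`ZMod.unitsMap_surjective`, `orderOf h ∣ n`); reindex the sum by `j ↦ i' j`.
* `∑_{g ∈ G} F g = ∑_j ∑_g (2 + g^j + g^(-j)) ≥ 2 n φ(n)` : `g ↦ g^j` is a bijection of `G`, and `∑_{g ∈ G} g` is `0`
  (`sum_subgroup_units_eq_zero`, `G ≠ ⊥`) or `1` (`G = ⊥`).
* `frobDens_fun` : `LowerDens (· ∉ T) w (2 φ(n))` (after `mono_const`-type comparison); `rk` + `upperDens_sum` + `UpperDens.mono` :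
  `UpperDens (· ∉ T) w (φ(n))`.  `le_of_lowerDens_of_upperDens` : `2 φ(n) ≤ φ(n)`, contradiction with `φ(n) > 0`.
-/

set_option autoImplicit false

namespace Fermat.Agent.S48.R48

/-- automorphisms of `ℂ` acting on `n`-th roots of unity by `ζ ↦ ζ ^ j`. -/
theorem exists_sigma (n : ℕ) (hn : 0 < n) (j : ℕ) (hj : j.Coprime n) :
    ∃ τ : ℂ →+* ℂ, ∀ ζ : ℂ, ζ ^ n = 1 → τ ζ = ζ ^ j := by
  have hn0 : n ≠ 0 := hn.ne'
  have hz : IsPrimitiveRoot (Complex.exp (2 * Real.pi * Complex.I / n)) n :=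
    Complex.isPrimitiveRoot_exp n hn0
  set z := Complex.exp (2 * Real.pi * Complex.I / n) with hzdef
  have hzj : IsPrimitiveRoot (z ^ j) n := hz.pow_of_coprime j hj
  have hirr : Irreducible (Polynomial.cyclotomic n ℚ) := Polynomial.cyclotomic.irreducible_rat hn
  haveI : Fact (Irreducible (Polynomial.cyclotomic n ℚ)) := ⟨hirr⟩
  haveI : NeZero ((n : ℕ) : ℂ) := ⟨by exact_mod_cast hn0⟩
  haveI : NeZero n := ⟨hn0⟩
  have h1 : Polynomial.eval₂ (algebraMap ℚ ℂ) z (Polynomial.cyclotomic n ℚ) = 0 := by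
    rw [← Polynomial.eval_map, Polynomial.map_cyclotomic]
    exact (Polynomial.isRoot_cyclotomic_iff.mpr hz)
  have h2 : Polynomial.eval₂ (algebraMap ℚ ℂ) (z ^ j) (Polynomial.cyclotomic n ℚ) = 0 := by
    rw [← Polynomial.eval_map, Polynomial.map_cyclotomic]
    exact (Polynomial.isRoot_cyclotomic_iff.mpr hzj)
  have hR : Cardinal.mk (AdjoinRoot (Polynomial.cyclotomic n ℚ)) ≤ Cardinal.aleph0 :=
    (Cardinal.mk_le_of_surjective (AdjoinRoot.mk_surjective)).trans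
      Fermat.Agent.S23.mk_polynomial_rat_le
  obtain ⟨σ, hσ⟩ := Fermat.Agent.S23.exists_ringEquiv_complex hR
    (AdjoinRoot.lift (algebraMap ℚ ℂ) z h1) (AdjoinRoot.lift (algebraMap ℚ ℂ) (z ^ j) h2)
    (RingHom.injective _) (RingHom.injective _)
  have hσz : σ z = z ^ j := by
    have := hσ (AdjoinRoot.root _)
    rwa [AdjoinRoot.lift_root, AdjoinRoot.lift_root] at this
  refine ⟨(σ : ℂ →+* ℂ), fun ζ hζ => ?_⟩
  obtain ⟨i, -, rfl⟩ := hz.eq_pow_of_pow_eq_one hζ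
  show σ (z ^ i) = _
  rw [map_pow, hσz, ← pow_mul, ← pow_mul, mul_comm]

/-- **(H)** -/
theorem no_characters {N : ℕ} {a : ℕ → ℂ}
    (rk : ∀ σ : ℂ →+* ℂ, UpperDens (fun p => ¬ p ∣ N) (fun p => ‖σ (a p)‖ ^ 2) 1)
    (χ₁ χ₂ : GQ →* ℂˣ) (h₁ : GaloisFactorsThroughFiniteLevel χ₁)
    (h₂ : GaloisFactorsThroughFiniteLevel χ₂) (T : Finset ℕ)
    (hN : ∀ p : ℕ, p.Prime → p ∉ T → ¬ p ∣ N) (hu₁ : UnramOutside χ₁ T) (hu₂ : UnramOutside χ₂ T)
    (hχ : ∀ p : ℕ, p.Prime → p ∉ T → ∀ (A : ValuationSubring Qb) (σ : GQ), A.LiesOverPrime p →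
      A.IsFrobeniusAt σ p → a p = (χ₁ σ : ℂ) + (χ₂ σ : ℂ)) : False := by
  classical
  -- the finite group `G ⊆ ℂˣ × ℂˣ`
  set G : Subgroup (ℂˣ × ℂˣ) := (χ₁.prod χ₂).range with hG
  have hlev0 : GaloisFactorsThroughFiniteLevel (χ₁.prod χ₂) := level_prod χ₁ χ₂ h₁ h₂
  have hfin : Finite G := finite_range _ hlev0
  let _ : Fintype G := Fintype.ofFinite G
  set r : GQ →* G := (χ₁.prod χ₂).rangeRestrict with hr
  have hsurj : Function.Surjective r := MonoidHom.rangeRestrict_surjective _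
  have hlev : GaloisFactorsThroughFiniteLevel r := level_rangeRestrict _ hlev0
  have hunr0 : UnramOutside (χ₁.prod χ₂) T := fun p hp hpT A hA σ hσ =>
    Prod.ext (hu₁ p hp hpT A hA σ hσ) (hu₂ p hp hpT A hA σ hσ)
  have hunr : UnramOutside r T := hunr0.rangeRestrict
  set n : ℕ := Fintype.card G with hn
  have hn0 : n ≠ 0 := Fintype.card_ne_zero
  have : NeZero n := ⟨hn0⟩
  -- the automorphisms
  have hτ : ∀ j : (ZMod n)ˣ, ∃ τ : ℂ →+* ℂ, ∀ ζ : ℂ, ζ ^ n = 1 → τ ζ = ζ ^ (j : ZMod n).val :=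
    fun j => exists_sigma n (Nat.pos_of_ne_zero hn0) _ (ZMod.val_coe_unit_coprime j)
  choose τ hτ using hτ
  -- the functions
  let f : G → ℝ := fun g => ‖(((g : ℂˣ × ℂˣ).1 : ℂˣ) : ℂ) + (((g : ℂˣ × ℂˣ).2 : ℂˣ) : ℂ)‖ ^ 2
  let F : G → ℝ := fun g => ∑ j : (ZMod n)ˣ, f (g ^ (j : ZMod n).val)
  let w : ℕ → ℝ := fun p => ∑ j : (ZMod n)ˣ, ‖τ j (a p)‖ ^ 2
  have hconj : ∀ g h : G, F (g * h * g⁻¹) = F h := by
    intro g h
    rw [mul_comm g h, mul_inv_cancel_right]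
  have hdiv : ∀ (h : G) (j : ℕ), j.Coprime (orderOf h) → F (h ^ j) = F h :=
    fun h i hi => StepH_div n hn f h i hi
  have hw : ∀ p : ℕ, p.Prime → p ∉ T → ∀ (A : ValuationSubring Qb) (σ : GQ), A.LiesOverPrime p →
      A.IsFrobeniusAt σ p → w p = F (r σ) := by
    intro p hp hpT A σ hA hσ
    refine Finset.sum_congr rfl fun j _ => ?_
    have hone : (r σ) ^ n = 1 := pow_card_eq_one
    have h1 : ((χ₁ σ : ℂˣ) : ℂ) ^ n = 1 := by
      have h := congrArg (fun x : G => (((x : ℂˣ × ℂˣ).1 : ℂˣ) : ℂ)) hone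
      simp only [Subgroup.coe_pow, Prod.pow_fst, Units.val_pow_eq_pow_val, Subgroup.coe_one,
        Prod.fst_one, Units.val_one] at h
      exact h
    have h2 : ((χ₂ σ : ℂˣ) : ℂ) ^ n = 1 := by
      have h := congrArg (fun x : G => (((x : ℂˣ × ℂˣ).2 : ℂˣ) : ℂ)) hone
      simp only [Subgroup.coe_pow, Prod.pow_snd, Units.val_pow_eq_pow_val, Subgroup.coe_one,
        Prod.snd_one, Units.val_one] at h
      exact h
    rw [hχ p hp hpT A σ hA hσ, map_add, hτ j _ h1, hτ j _ h2]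
    simp only [f, Subgroup.coe_pow, Prod.pow_fst, Prod.pow_snd, Units.val_pow_eq_pow_val]
    rfl
  obtain ⟨-, hlow⟩ := frobDens_fun r hsurj hlev T hunr F hconj hdiv w hw
  -- the upper bound
  have hup0 : UpperDens (fun p => ¬ p ∣ N) w (∑ _j : (ZMod n)ˣ, (1 : ℝ)) :=
    upperDens_sum Finset.univ (fun p => ¬ p ∣ N) (fun j p => ‖τ j (a p)‖ ^ 2) (fun _ => 1)
      (fun j _ => rk (τ j))
  have hw0 : ∀ p, 0 ≤ w p := fun p => Finset.sum_nonneg fun j _ => by positivity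
  have hup : UpperDens (fun p => p ∉ T) w (∑ _j : (ZMod n)ˣ, (1 : ℝ)) :=
    UpperDens.mono hup0 (fun p hp hpT => hN p hp hpT) (fun p _ _ => hw0 p) (fun p _ _ => hw0 p)
      (fun p _ _ => le_rfl)
  have hle := le_of_lowerDens_of_upperDens hlow hup
  -- the sum
  have hsumF : ∑ g, F g = (∑ _j : (ZMod n)ˣ, (1 : ℝ)) * ∑ g, f g := by
    show ∑ g, ∑ j : (ZMod n)ˣ, f (g ^ (j : ZMod n).val) = _
    rw [Finset.sum_comm, Finset.sum_mul]
    refine Finset.sum_congr rfl fun j _ => ?_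
    rw [one_mul]
    exact StepH_sum_pow f _ (ZMod.val_coe_unit_coprime j)
  have hge : 2 * (n : ℝ) ≤ ∑ g, f g := StepH_sum_ge G
  have hφ : 0 < ∑ _j : (ZMod n)ˣ, (1 : ℝ) := by
    simp only [Finset.sum_const, Finset.card_univ, nsmul_eq_mul, mul_one]
    exact_mod_cast Fintype.card_pos
  have hnpos : (0 : ℝ) < n := by exact_mod_cast Nat.pos_of_ne_zero hn0
  rw [hsumF, div_le_iff₀ (by exact_mod_cast hnpos)] at hle
  nlinarith [mul_le_mul_of_nonneg_left hge hφ.le, mul_pos hφ hnpos]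

end Fermat.Agent.S48.R48
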